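import Mathlib

/-!
# Burnside counting for cyclic groups of small order
-/

set_option autoImplicit false

namespace Fermat.Agent.S21lib

open MulAction

variable {G : Type*} [Group G] {X : Type*} [MulAction G X] [Finite X]

lemma burnside_cyclic (g : G) (hg : IsOfFinOrder g) :
    ∑ i ∈ Finset.range (orderOf g), Nat.card {x : X // g ^ i • x = x}
      = Nat.card (orbitRel.Quotient (Subgroup.zpowers g) X) * orderOf g := by
  classical
  have : Fintype X := Fintype.ofFinite X
  have : Fintype (Subgroup.zpowers g) := Fintype.ofEquiv _ (finEquivZPowers hg)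
  have : Fintype (Quotient (orbitRel (Subgroup.zpowers g) X)) := Fintype.ofFinite _
  have B := sum_card_fixedBy_eq_card_orbits_mul_card_group (Subgroup.zpowers g) X
  have hc : Fintype.card (Subgroup.zpowers g) = orderOf g := by
    rw [← Nat.card_eq_fintype_card, Nat.card_zpowers]
  rw [hc] at B
  rw [Nat.card_eq_fintype_card]
  rw [show Fintype.card (orbitRel.Quotient (Subgroup.zpowers g) X)
    = Fintype.card (Quotient (orbitRel (Subgroup.zpowers g) X)) from rfl, ← B]
  rw [← Fin.sum_univ_eq_sum_range (fun i => Nat.card {x : X // g ^ i • x = x}) (orderOf g)]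
  refine Fintype.sum_equiv (finEquivZPowers hg) _ _ ?_
  intro i
  rw [Nat.card_eq_fintype_card, finEquivZPowers_apply]
  rfl

end Fermat.Agent.S21lib
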