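import Mathlib

/-!
# An abstract dimension bound for "parabolic" homomorphisms of a finite index subgroup

`G` is a group generated by two elements `s`, `u`, `Γ ≤ G` has finite index, `X = G ⧸ Γ`.
If `P` is a space of homomorphisms `Γ → ℂ` killing all conjugates of `s ^ ks`, `u ^ ku`,
`(s⁻¹ u) ^ kt` (which are assumed to act trivially on `X`), then
`dim P + #(X/s) + #(X/u) + #(X/s⁻¹u) ≤ #X + 2`.
-/

set_option autoImplicit false

namespace Fermat.Agent.S21lib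

open Module

variable {G : Type*} [Group G] (Γ : Subgroup G)

/-- chosen coset representative -/
noncomputable def rep (x : G ⧸ Γ) : G := Quotient.out x

lemma rep_spec (x : G ⧸ Γ) : ((rep Γ x : G) : G ⧸ Γ) = x := QuotientGroup.out_eq' x

lemma mem_aux (g : G) (x : G ⧸ Γ) : (rep Γ x)⁻¹ * g * rep Γ (g⁻¹ • x) ∈ Γ := by
  have h : ((rep Γ x : G) : G ⧸ Γ) = ((g * rep Γ (g⁻¹ • x) : G) : G ⧸ Γ) := by
    have h2 : ((g * rep Γ (g⁻¹ • x) : G) : G ⧸ Γ) = g • ((rep Γ (g⁻¹ • x) : G) : G ⧸ Γ) := rfl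
    rw [h2, rep_spec, rep_spec, smul_inv_smul]
  rw [mul_assoc]
  exact QuotientGroup.eq.mp h

/-- the induced cocycle (Shapiro) -/
noncomputable def coc (φ : Additive Γ →+ ℂ) (g : G) (x : G ⧸ Γ) : ℂ :=
  φ (Additive.ofMul ⟨(rep Γ x)⁻¹ * g * rep Γ (g⁻¹ • x), mem_aux Γ g x⟩)

lemma coc_mul (φ : Additive Γ →+ ℂ) (g h : G) (x : G ⧸ Γ) :
    coc Γ φ (g * h) x = coc Γ φ g x + coc Γ φ h (g⁻¹ • x) := by
  unfold coc
  rw [← map_add, ← ofMul_mul]
  congr 2
  apply Subtype.ext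
  simp only [MulMemClass.mk_mul_mk, mul_inv_rev, mul_smul]
  group

/-- cocycle plus coboundary -/
noncomputable def cc (φ : Additive Γ →+ ℂ) (m : G ⧸ Γ → ℂ) (g : G) (x : G ⧸ Γ) : ℂ :=
  coc Γ φ g x + m (g⁻¹ • x) - m x

lemma cc_mul (φ : Additive Γ →+ ℂ) (m : G ⧸ Γ → ℂ) (g h : G) (x : G ⧸ Γ) :
    cc Γ φ m (g * h) x = cc Γ φ m g x + cc Γ φ m h (g⁻¹ • x) := by
  unfold cc
  rw [coc_mul, mul_inv_rev, mul_smul]
  ring

lemma cc_one (φ : Additive Γ →+ ℂ) (m : G ⧸ Γ → ℂ) (x : G ⧸ Γ) : cc Γ φ m 1 x = 0 := by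
  have h := cc_mul Γ φ m 1 1 x
  rw [mul_one, inv_one, one_smul] at h
  simpa using h

lemma cc_inv (φ : Additive Γ →+ ℂ) (m : G ⧸ Γ → ℂ) (g : G) (x : G ⧸ Γ) :
    cc Γ φ m g⁻¹ x = - cc Γ φ m g (g • x) := by
  have h := cc_mul Γ φ m g⁻¹ g x
  rw [inv_mul_cancel, cc_one, inv_inv] at h
  exact eq_neg_of_add_eq_zero_left h.symm

lemma cc_pow (φ : Additive Γ →+ ℂ) (m : G ⧸ Γ → ℂ) (g : G) (k : ℕ) (x : G ⧸ Γ) :
    cc Γ φ m (g ^ k) x = ∑ i ∈ Finset.range k, cc Γ φ m g ((g ^ i)⁻¹ • x) := by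
  induction k with
  | zero => simp [cc_one]
  | succ k ih => rw [pow_succ, cc_mul, ih, Finset.sum_range_succ]

/-- The subgroup on which a cocycle vanishes. -/
noncomputable def vanishSubgroup (φ : Additive Γ →+ ℂ) (m : G ⧸ Γ → ℂ) : Subgroup G where
  carrier := {g | ∀ x, cc Γ φ m g x = 0}
  one_mem' := fun x => cc_one Γ φ m x
  mul_mem' := by
    intro a b ha hb x
    rw [cc_mul, ha x, hb _, add_zero]
  inv_mem' := by
    intro a ha x
    rw [cc_inv, ha _, neg_zero]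

/-- `g ^ k` acts trivially on `X` and its conjugates are killed by `P`. -/
structure IsKilled (P : Submodule ℂ (Additive Γ →+ ℂ)) (g : G) (k : ℕ) : Prop where
  pos : 0 < k
  triv : ∀ x : G ⧸ Γ, g ^ k • x = x
  kill : ∀ φ ∈ P, ∀ (y : G) (h : y⁻¹ * g ^ k * y ∈ Γ), φ (Additive.ofMul ⟨y⁻¹ * g ^ k * y, h⟩) = 0

variable {Γ}

lemma IsKilled.cc_pow_eq_zero {P : Submodule ℂ (Additive Γ →+ ℂ)} {g : G} {k : ℕ}
    (H : IsKilled Γ P g k) {φ : Additive Γ →+ ℂ} (hφ : φ ∈ P) (m : G ⧸ Γ → ℂ) (x : G ⧸ Γ) :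
    cc Γ φ m (g ^ k) x = 0 := by
  have hx : (g ^ k)⁻¹ • x = x := by
    rw [inv_smul_eq_iff, H.triv]
  unfold cc coc
  have key : ∀ (z : G ⧸ Γ) (hz : z = x) (h : (rep Γ x)⁻¹ * g ^ k * rep Γ z ∈ Γ),
      φ (Additive.ofMul ⟨(rep Γ x)⁻¹ * g ^ k * rep Γ z, h⟩) = 0 := by
    intro z hz h
    subst hz
    exact H.kill φ hφ _ h
  rw [key _ hx, hx]
  ring

section sums

variable [Fintype (G ⧸ Γ)]

lemma sum_mul_eq_zero_of_invariant {g : G} {k : ℕ} (hk : 0 < k) (f w : G ⧸ Γ → ℂ)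
    (hw : ∀ x, w (g⁻¹ • x) = w x)
    (hf : ∀ x, ∑ i ∈ Finset.range k, f ((g ^ i)⁻¹ • x) = 0) :
    ∑ x, f x * w x = 0 := by
  have hw' : ∀ (i : ℕ) (x : G ⧸ Γ), w ((g ^ i)⁻¹ • x) = w x := by
    intro i
    induction i with
    | zero => intro x; simp
    | succ i ih =>
      intro x
      rw [pow_succ, mul_inv_rev, mul_smul, hw, ih]
  have h1 : ∀ i : ℕ, ∑ x, f ((g ^ i)⁻¹ • x) * w ((g ^ i)⁻¹ • x) = ∑ x, f x * w x := by
    intro i
    exact Equiv.sum_comp (MulAction.toPerm ((g ^ i)⁻¹)) (fun x => f x * w x)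
  have h2 : (k : ℂ) * ∑ x, f x * w x = 0 := by
    calc (k : ℂ) * ∑ x, f x * w x
        = ∑ i ∈ Finset.range k, ∑ x, f x * w x := by simp
      _ = ∑ i ∈ Finset.range k, ∑ x, f ((g ^ i)⁻¹ • x) * w ((g ^ i)⁻¹ • x) := by
          refine Finset.sum_congr rfl fun i _ => (h1 i).symm
      _ = ∑ x, ∑ i ∈ Finset.range k, f ((g ^ i)⁻¹ • x) * w x := by
          rw [Finset.sum_comm]
          refine Finset.sum_congr rfl fun x _ => Finset.sum_congr rfl fun i _ => by rw [hw']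
      _ = ∑ x, (∑ i ∈ Finset.range k, f ((g ^ i)⁻¹ • x)) * w x := by
          refine Finset.sum_congr rfl fun x _ => by rw [Finset.sum_mul]
      _ = 0 := by simp [hf]
  rcases mul_eq_zero.mp h2 with h | h
  · exact absurd (Nat.cast_eq_zero.mp h) hk.ne'
  · exact h

lemma IsKilled.sum_cc_mul_eq_zero {P : Submodule ℂ (Additive Γ →+ ℂ)} {g : G} {k : ℕ}
    (H : IsKilled Γ P g k) {φ : Additive Γ →+ ℂ} (hφ : φ ∈ P) (m w : G ⧸ Γ → ℂ)
    (hw : ∀ x, w (g⁻¹ • x) = w x) :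
    ∑ x, cc Γ φ m g x * w x = 0 :=
  sum_mul_eq_zero_of_invariant H.pos _ w hw fun x => by
    rw [← cc_pow, H.cc_pow_eq_zero hφ]

end sums


section linear

lemma coc_add (φ ψ : Additive Γ →+ ℂ) (g : G) (x : G ⧸ Γ) :
    coc Γ (φ + ψ) g x = coc Γ φ g x + coc Γ ψ g x := rfl

lemma coc_smul (c : ℂ) (φ : Additive Γ →+ ℂ) (g : G) (x : G ⧸ Γ) :
    coc Γ (c • φ) g x = c * coc Γ φ g x := rfl

variable (P : Submodule ℂ (Additive Γ →+ ℂ))

/-- evaluation of cocycle+coboundary at `g`, as a linear map -/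
noncomputable def ccLin (g : G) : (P × (G ⧸ Γ → ℂ)) →ₗ[ℂ] (G ⧸ Γ → ℂ) where
  toFun p := fun x => cc Γ (p.1 : Additive Γ →+ ℂ) p.2 g x
  map_add' p q := by
    funext x
    simp only [cc, Prod.fst_add, Prod.snd_add, Submodule.coe_add, coc_add, Pi.add_apply]
    ring
  map_smul' c p := by
    funext x
    simp only [cc, Prod.smul_fst, Prod.smul_snd, Submodule.coe_smul, coc_smul, Pi.smul_apply,
      smul_eq_mul, RingHom.id_apply]
    ring

/-- `(φ, m) ↦ (c(s), c(u))` -/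
noncomputable def psiLin (s u : G) :
    (P × (G ⧸ Γ → ℂ)) →ₗ[ℂ] (G ⧸ Γ → ℂ) × (G ⧸ Γ → ℂ) :=
  (ccLin P s).prod (ccLin P u)

lemma coc_of_mem (φ : Additive Γ →+ ℂ) (γ : Γ) :
    coc Γ φ (γ : G) ((1 : G) : G ⧸ Γ) = φ (Additive.ofMul γ) := by
  have hx : (γ : G)⁻¹ • (((1 : G) : G ⧸ Γ)) = ((1 : G) : G ⧸ Γ) := by
    have h2 : (γ : G)⁻¹ • (((1 : G) : G ⧸ Γ)) = (((γ : G)⁻¹ * 1 : G) : G ⧸ Γ) := rfl
    rw [h2, QuotientGroup.eq]
    simp
  have hr : rep Γ ((1 : G) : G ⧸ Γ) ∈ Γ := by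
    have := rep_spec Γ ((1 : G) : G ⧸ Γ)
    rw [QuotientGroup.eq] at this
    simpa using Γ.inv_mem this
  unfold coc
  have key : ∀ (z : G ⧸ Γ) (hz : z = ((1 : G) : G ⧸ Γ))
      (h : (rep Γ ((1 : G) : G ⧸ Γ))⁻¹ * (γ : G) * rep Γ z ∈ Γ),
      φ (Additive.ofMul ⟨(rep Γ ((1 : G) : G ⧸ Γ))⁻¹ * (γ : G) * rep Γ z, h⟩)
        = φ (Additive.ofMul γ) := by
    intro z hz h
    subst hz
    have e : (⟨(rep Γ ((1 : G) : G ⧸ Γ))⁻¹ * (γ : G) * rep Γ ((1 : G) : G ⧸ Γ), h⟩ : Γ)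
        = (⟨rep Γ ((1 : G) : G ⧸ Γ), hr⟩ : Γ)⁻¹ * γ * ⟨rep Γ ((1 : G) : G ⧸ Γ), hr⟩ := by
      apply Subtype.ext
      simp
    rw [e, ofMul_mul, ofMul_mul, map_add, map_add, ofMul_inv, map_neg]
    ring
  exact key _ hx _

lemma ker_psiLin_le {s u : G} (hgen : Subgroup.closure {s, u} = ⊤) :
    LinearMap.ker (psiLin P s u) ≤ Submodule.span ℂ {((0 : P), (fun _ => (1 : ℂ)))} := by
  rintro ⟨φ, m⟩ hp
  rw [LinearMap.mem_ker] at hp
  have hs : ∀ x, cc Γ (φ : Additive Γ →+ ℂ) m s x = 0 := fun x => congrFun (congrArg Prod.fst hp) x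
  have hu : ∀ x, cc Γ (φ : Additive Γ →+ ℂ) m u x = 0 := fun x => congrFun (congrArg Prod.snd hp) x
  have htop : vanishSubgroup Γ (φ : Additive Γ →+ ℂ) m = ⊤ := by
    rw [eq_top_iff, ← hgen, Subgroup.closure_le]
    rintro g (rfl | rfl)
    · exact hs
    · exact hu
  have hall : ∀ g x, cc Γ (φ : Additive Γ →+ ℂ) m g x = 0 := by
    intro g
    have : g ∈ vanishSubgroup Γ (φ : Additive Γ →+ ℂ) m := by rw [htop]; trivial
    exact this
  have hφ : (φ : Additive Γ →+ ℂ) = 0 := by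
    ext γ
    have h := hall (γ : G) ((1 : G) : G ⧸ Γ)
    have hx : (γ : G)⁻¹ • (((1 : G) : G ⧸ Γ)) = ((1 : G) : G ⧸ Γ) := by
      have h2 : (γ : G)⁻¹ • (((1 : G) : G ⧸ Γ)) = (((γ : G)⁻¹ * 1 : G) : G ⧸ Γ) := rfl
      rw [h2, QuotientGroup.eq]
      simp
    unfold cc at h
    rw [coc_of_mem, hx] at h
    simpa using h
  have hm : ∀ x, m x = m ((1 : G) : G ⧸ Γ) := by
    intro x
    obtain ⟨g, rfl⟩ := QuotientGroup.mk_surjective x
    have h := hall g (g : G ⧸ Γ)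
    unfold cc at h
    have hc : coc Γ (φ : Additive Γ →+ ℂ) g (g : G ⧸ Γ) = 0 := by
      rw [hφ]; rfl
    have hx : g⁻¹ • ((g : G) : G ⧸ Γ) = ((1 : G) : G ⧸ Γ) := by
      have h2 : g⁻¹ • ((g : G) : G ⧸ Γ) = ((g⁻¹ * g : G) : G ⧸ Γ) := rfl
      rw [h2, inv_mul_cancel]
    rw [hc, hx] at h
    linear_combination -h
  rw [Submodule.mem_span_singleton]
  refine ⟨m ((1 : G) : G ⧸ Γ), ?_⟩
  ext1
  · apply Subtype.ext
    simp [hφ]
  · funext x
    simp [hm x]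

end linear

section orbits

variable (Γ)

/-- orbits of the cyclic group generated by `g` on `X = G ⧸ Γ` -/
abbrev Orb (g : G) : Type _ := MulAction.orbitRel.Quotient (Subgroup.zpowers g) (G ⧸ Γ)

/-- class of a point -/
def orbMk (g : G) (x : G ⧸ Γ) : Orb Γ g := Quotient.mk'' x

lemma orbMk_surjective (g : G) : Function.Surjective (orbMk Γ g) := Quotient.mk''_surjective

lemma orbMk_inv_smul (g : G) (x : G ⧸ Γ) : orbMk Γ g (g⁻¹ • x) = orbMk Γ g x := by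
  apply Quotient.sound'
  rw [MulAction.orbitRel_apply]
  exact ⟨⟨g⁻¹, Subgroup.inv_mem _ (Subgroup.mem_zpowers g)⟩, rfl⟩

/-- the "transpose" map -/
noncomputable def jLin (s u : G) :
    ((Orb Γ s → ℂ) × (Orb Γ u → ℂ) × (Orb Γ (s⁻¹ * u) → ℂ)) →ₗ[ℂ]
      (G ⧸ Γ → ℂ) × (G ⧸ Γ → ℂ) where
  toFun p := (fun x => p.1 (orbMk Γ s x) - p.2.2 (orbMk Γ (s⁻¹ * u) (s⁻¹ • x)),
    fun x => p.2.1 (orbMk Γ u x) + p.2.2 (orbMk Γ (s⁻¹ * u) (s⁻¹ • x)))
  map_add' p q := by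
    ext x
    · simp only [Prod.fst_add, Prod.snd_add, Pi.add_apply]; ring
    · simp only [Prod.fst_add, Prod.snd_add, Pi.add_apply]; ring
  map_smul' c p := by
    ext x
    · simp only [Prod.smul_fst, Prod.smul_snd, Pi.smul_apply, smul_eq_mul, RingHom.id_apply]; ring
    · simp only [Prod.smul_fst, Prod.smul_snd, Pi.smul_apply, smul_eq_mul, RingHom.id_apply]; ring

/-- The subgroup of elements leaving a function invariant. -/
def invSubgroup (w : G ⧸ Γ → ℂ) : Subgroup G where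
  carrier := {g | ∀ x, w (g⁻¹ • x) = w x}
  one_mem' := fun x => by simp
  mul_mem' := by
    intro a b ha hb x
    rw [mul_inv_rev, mul_smul, hb, ha]
  inv_mem' := by
    intro a ha x
    have := ha (a • x)
    rw [inv_smul_smul] at this
    rw [inv_inv, this]

lemma ker_jLin_le {s u : G} (hgen : Subgroup.closure {s, u} = ⊤) :
    LinearMap.ker (jLin Γ s u) ≤ Submodule.span ℂ
      {((fun _ => (1 : ℂ)), (fun _ => (-1 : ℂ)), (fun _ => (1 : ℂ)))} := by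
  rintro ⟨α, β, τ⟩ hp
  rw [LinearMap.mem_ker] at hp
  have h1 : ∀ x, α (orbMk Γ s x) - τ (orbMk Γ (s⁻¹ * u) (s⁻¹ • x)) = 0 :=
    fun x => congrFun (congrArg Prod.fst hp) x
  have h2 : ∀ x, β (orbMk Γ u x) + τ (orbMk Γ (s⁻¹ * u) (s⁻¹ • x)) = 0 :=
    fun x => congrFun (congrArg Prod.snd hp) x
  set w : G ⧸ Γ → ℂ := fun x => τ (orbMk Γ (s⁻¹ * u) (s⁻¹ • x)) with hw
  have hwα : ∀ x, w x = α (orbMk Γ s x) := fun x => by
    have := h1 x
    simp only [hw]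
    linear_combination -this
  have hwβ : ∀ x, w x = - β (orbMk Γ u x) := fun x => by
    have := h2 x
    simp only [hw]
    linear_combination this
  have htop : invSubgroup Γ w = ⊤ := by
    rw [eq_top_iff, ← hgen, Subgroup.closure_le]
    rintro g (rfl | rfl)
    · intro x
      rw [hwα, hwα, orbMk_inv_smul]
    · intro x
      rw [hwβ, hwβ, orbMk_inv_smul]
  have hconst : ∀ x, w x = w ((1 : G) : G ⧸ Γ) := by
    intro x
    obtain ⟨g, rfl⟩ := QuotientGroup.mk_surjective x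
    have hg : g ∈ invSubgroup Γ w := by rw [htop]; trivial
    have := hg (g : G ⧸ Γ)
    have hx : g⁻¹ • ((g : G) : G ⧸ Γ) = ((1 : G) : G ⧸ Γ) := by
      have h2 : g⁻¹ • ((g : G) : G ⧸ Γ) = ((g⁻¹ * g : G) : G ⧸ Γ) := rfl
      rw [h2, inv_mul_cancel]
    rw [hx] at this
    exact this.symm
  rw [Submodule.mem_span_singleton]
  refine ⟨w ((1 : G) : G ⧸ Γ), ?_⟩
  ext1
  · funext q
    obtain ⟨x, rfl⟩ := orbMk_surjective Γ s q
    simp [← hwα, hconst x]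
  · ext1
    · funext q
      obtain ⟨x, rfl⟩ := orbMk_surjective Γ u q
      have := hwβ x
      rw [hconst x] at this
      simp [this]
    · funext q
      obtain ⟨x, rfl⟩ := orbMk_surjective Γ (s⁻¹ * u) q
      have := hconst (s • x)
      simp only [hw, inv_smul_smul] at this
      simp only [hw]
      simp [this]

end orbits

section pairing

variable [Fintype (G ⧸ Γ)]

variable (Γ) in
/-- The standard bilinear pairing on `(X → ℂ) × (X → ℂ)`, as a map to the dual. -/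
noncomputable def bMap :
    ((G ⧸ Γ → ℂ) × (G ⧸ Γ → ℂ)) →ₗ[ℂ] Module.Dual ℂ ((G ⧸ Γ → ℂ) × (G ⧸ Γ → ℂ)) where
  toFun w :=
    { toFun := fun v => ∑ x, v.1 x * w.1 x + ∑ x, v.2 x * w.2 x
      map_add' := by
        intro v v'
        simp only [Prod.fst_add, Prod.snd_add, Pi.add_apply, add_mul, Finset.sum_add_distrib]
        ring
      map_smul' := by
        intro c v
        simp only [Prod.smul_fst, Prod.smul_snd, Pi.smul_apply, smul_eq_mul, RingHom.id_apply,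
          mul_add, Finset.mul_sum, mul_assoc] }
  map_add' := by
    intro w w'
    ext v <;>
    · simp only [Prod.fst_add, Prod.snd_add, Pi.add_apply, mul_add, Finset.sum_add_distrib,
        LinearMap.coe_mk, AddHom.coe_mk, LinearMap.add_apply, LinearMap.coe_comp,
        Function.comp_apply]
      ring
  map_smul' := by
    intro c w
    ext v <;>
    · simp only [Prod.smul_fst, Prod.smul_snd, Pi.smul_apply, smul_eq_mul, RingHom.id_apply,
        LinearMap.coe_mk, AddHom.coe_mk, LinearMap.smul_apply, LinearMap.coe_comp,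
        Function.comp_apply, mul_add, Finset.mul_sum]
      congr 1 <;> refine Finset.sum_congr rfl fun x _ => by ring

lemma bMap_apply (w v : (G ⧸ Γ → ℂ) × (G ⧸ Γ → ℂ)) :
    bMap Γ w v = ∑ x, v.1 x * w.1 x + ∑ x, v.2 x * w.2 x := rfl

lemma bMap_injective : Function.Injective (bMap Γ) := by
  classical
  rw [injective_iff_map_eq_zero]
  intro w hw
  ext x
  · have := congrArg (fun f => f (Pi.single x 1, 0)) hw
    simpa [bMap_apply, Pi.single_apply] using this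
  · have := congrArg (fun f => f (0, Pi.single x 1)) hw
    simpa [bMap_apply, Pi.single_apply] using this

lemma orthogonality {P : Submodule ℂ (Additive Γ →+ ℂ)} {s u : G} {ks ku kt : ℕ}
    (Hs : IsKilled Γ P s ks) (Hu : IsKilled Γ P u ku) (Ht : IsKilled Γ P (s⁻¹ * u) kt)
    (p : P × (G ⧸ Γ → ℂ))
    (q : (Orb Γ s → ℂ) × (Orb Γ u → ℂ) × (Orb Γ (s⁻¹ * u) → ℂ)) :
    bMap Γ (jLin Γ s u q) (psiLin P s u p) = 0 := by
  obtain ⟨φ, m⟩ := p
  obtain ⟨α, β, τ⟩ := q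
  rw [bMap_apply]
  show ∑ x, cc Γ (φ : Additive Γ →+ ℂ) m s x *
        (α (orbMk Γ s x) - τ (orbMk Γ (s⁻¹ * u) (s⁻¹ • x))) +
      ∑ x, cc Γ (φ : Additive Γ →+ ℂ) m u x *
        (β (orbMk Γ u x) + τ (orbMk Γ (s⁻¹ * u) (s⁻¹ • x))) = 0
  have e1 := Hs.sum_cc_mul_eq_zero φ.2 m (fun x => α (orbMk Γ s x))
    (fun x => by rw [orbMk_inv_smul])
  have e2 := Hu.sum_cc_mul_eq_zero φ.2 m (fun x => β (orbMk Γ u x))
    (fun x => by rw [orbMk_inv_smul])
  have e3 := Ht.sum_cc_mul_eq_zero φ.2 m (fun x => τ (orbMk Γ (s⁻¹ * u) x))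
    (fun x => by rw [orbMk_inv_smul])
  have e4 : ∑ x, cc Γ (φ : Additive Γ →+ ℂ) m (s⁻¹ * u) x * τ (orbMk Γ (s⁻¹ * u) x)
      = ∑ x, (cc Γ (φ : Additive Γ →+ ℂ) m u x - cc Γ (φ : Additive Γ →+ ℂ) m s x)
          * τ (orbMk Γ (s⁻¹ * u) (s⁻¹ • x)) := by
    rw [← Equiv.sum_comp (MulAction.toPerm s⁻¹)
      (fun x => cc Γ (φ : Additive Γ →+ ℂ) m (s⁻¹ * u) x * τ (orbMk Γ (s⁻¹ * u) x))]
    refine Finset.sum_congr rfl fun x _ => ?_
    simp only [MulAction.toPerm_apply]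
    rw [cc_mul, cc_inv, inv_inv, smul_inv_smul]
    ring
  rw [e4] at e3
  have e5 : ∑ x, cc Γ (φ : Additive Γ →+ ℂ) m s x *
        (α (orbMk Γ s x) - τ (orbMk Γ (s⁻¹ * u) (s⁻¹ • x))) +
      ∑ x, cc Γ (φ : Additive Γ →+ ℂ) m u x *
        (β (orbMk Γ u x) + τ (orbMk Γ (s⁻¹ * u) (s⁻¹ • x)))
      = ∑ x, cc Γ (φ : Additive Γ →+ ℂ) m s x * α (orbMk Γ s x)
        + ∑ x, cc Γ (φ : Additive Γ →+ ℂ) m u x * β (orbMk Γ u x)
        + ∑ x, (cc Γ (φ : Additive Γ →+ ℂ) m u x - cc Γ (φ : Additive Γ →+ ℂ) m s x)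
          * τ (orbMk Γ (s⁻¹ * u) (s⁻¹ • x)) := by
    rw [← Finset.sum_add_distrib, ← Finset.sum_add_distrib, ← Finset.sum_add_distrib]
    refine Finset.sum_congr rfl fun x _ => by ring
  rw [e5, e1, e2, e3]
  ring

end pairing

section main

/-- Injectivity of `φ ↦ (c_φ(s), c_φ(u))`, giving finite-dimensionality. -/
lemma finite_of_closure [Finite (G ⧸ Γ)] (P : Submodule ℂ (Additive Γ →+ ℂ)) {s u : G}
    (hgen : Subgroup.closure {s, u} = ⊤) : Module.Finite ℂ P := by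
  have hinj : Function.Injective ((psiLin P s u).comp (LinearMap.inl ℂ P (G ⧸ Γ → ℂ))) := by
    rw [injective_iff_map_eq_zero]
    intro φ hφ
    have hk : ((φ, 0) : P × (G ⧸ Γ → ℂ)) ∈ LinearMap.ker (psiLin P s u) := hφ
    have := ker_psiLin_le P hgen hk
    rw [Submodule.mem_span_singleton] at this
    obtain ⟨c, hc⟩ := this
    have := congrArg Prod.fst hc
    simpa using this.symm
  exact Module.Finite.of_injective _ hinj

theorem abstract_bound [Finite (G ⧸ Γ)] (P : Submodule ℂ (Additive Γ →+ ℂ)) {s u : G}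
    (hgen : Subgroup.closure {s, u} = ⊤) {ks ku kt : ℕ}
    (Hs : IsKilled Γ P s ks) (Hu : IsKilled Γ P u ku) (Ht : IsKilled Γ P (s⁻¹ * u) kt) :
    finrank ℂ P + Nat.card (Orb Γ s) + Nat.card (Orb Γ u) + Nat.card (Orb Γ (s⁻¹ * u))
      ≤ Nat.card (G ⧸ Γ) + 2 := by
  classical
  have : Fintype (G ⧸ Γ) := Fintype.ofFinite _
  have : Module.Finite ℂ P := finite_of_closure P hgen
  have : Finite (Orb Γ s) := Finite.of_surjective _ (orbMk_surjective Γ s)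
  have : Finite (Orb Γ u) := Finite.of_surjective _ (orbMk_surjective Γ u)
  have : Finite (Orb Γ (s⁻¹ * u)) := Finite.of_surjective _ (orbMk_surjective Γ (s⁻¹ * u))
  have : Fintype (Orb Γ s) := Fintype.ofFinite _
  have : Fintype (Orb Γ u) := Fintype.ofFinite _
  have : Fintype (Orb Γ (s⁻¹ * u)) := Fintype.ofFinite _
  -- rank-nullity for psi
  have r1 := LinearMap.finrank_range_add_finrank_ker (psiLin P s u)
  have k1 : finrank ℂ (LinearMap.ker (psiLin P s u)) ≤ 1 :=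
    (Submodule.finrank_mono (ker_psiLin_le P hgen)).trans (by simpa using finrank_span_le_card (R := ℂ) {_})
  have d1 : finrank ℂ (P × (G ⧸ Γ → ℂ)) = finrank ℂ P + Nat.card (G ⧸ Γ) := by
    rw [Module.finrank_prod, Module.finrank_fintype_fun_eq_card, Nat.card_eq_fintype_card]
  -- rank-nullity for j
  have r2 := LinearMap.finrank_range_add_finrank_ker (jLin Γ s u)
  have k2 : finrank ℂ (LinearMap.ker (jLin Γ s u)) ≤ 1 :=
    (Submodule.finrank_mono (ker_jLin_le Γ hgen)).trans (by simpa using finrank_span_le_card (R := ℂ) {_})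
  have d2 : finrank ℂ ((Orb Γ s → ℂ) × (Orb Γ u → ℂ) × (Orb Γ (s⁻¹ * u) → ℂ))
      = Nat.card (Orb Γ s) + (Nat.card (Orb Γ u) + Nat.card (Orb Γ (s⁻¹ * u))) := by
    rw [Module.finrank_prod, Module.finrank_prod, Module.finrank_fintype_fun_eq_card,
      Module.finrank_fintype_fun_eq_card, Module.finrank_fintype_fun_eq_card,
      Nat.card_eq_fintype_card, Nat.card_eq_fintype_card, Nat.card_eq_fintype_card]
  -- duality
  have d3 : finrank ℂ ((G ⧸ Γ → ℂ) × (G ⧸ Γ → ℂ)) = Nat.card (G ⧸ Γ) + Nat.card (G ⧸ Γ) := by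
    rw [Module.finrank_prod, Module.finrank_fintype_fun_eq_card, Nat.card_eq_fintype_card]
  have a1 := Subspace.finrank_add_finrank_dualAnnihilator_eq (LinearMap.range (psiLin P s u))
  have le1 : (LinearMap.range (jLin Γ s u)).map (bMap Γ)
      ≤ (LinearMap.range (psiLin P s u)).dualAnnihilator := by
    rintro _ ⟨_, ⟨q, rfl⟩, rfl⟩
    rw [Submodule.mem_dualAnnihilator]
    rintro _ ⟨p, rfl⟩
    exact orthogonality Hs Hu Ht p q
  have a2 : finrank ℂ (LinearMap.range (jLin Γ s u))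
      ≤ finrank ℂ (LinearMap.range (psiLin P s u)).dualAnnihilator := by
    rw [(Submodule.equivMapOfInjective (bMap Γ) bMap_injective
      (LinearMap.range (jLin Γ s u))).finrank_eq]
    exact Submodule.finrank_mono le1
  omega

end main

end Fermat.Agent.S21lib
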