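import Mathlib
import Fermat.Prelude.Def_ModularCurve_PeriodHomPair
import Fermat.Prelude.Def_ModularCurve_GenusNumerics
import Fermat.Agent.S21.CocycleBound
import Fermat.Agent.S21.Burnside

/-!
# Upper bound for the dimension of the parabolic homomorphisms of `Γ₀(N)`
-/

set_option autoImplicit false

namespace Fermat.Agent.S21lib

open Module CongruenceSubgroup ModularGroup ModularCurve.Period
open scoped MatrixGroups

lemma closure_S_ST : Subgroup.closure {(S : SL(2, ℤ)), S * T} = ⊤ := by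
  rw [eq_top_iff, ← SpecialLinearGroup.SL2Z_generators, Subgroup.closure_le]
  rintro g (rfl | rfl)
  · exact Subgroup.subset_closure (by simp)
  · have h1 : (S : SL(2, ℤ)) ∈ Subgroup.closure {(S : SL(2, ℤ)), S * T} :=
      Subgroup.subset_closure (by simp)
    have h2 : (S * T : SL(2, ℤ)) ∈ Subgroup.closure {(S : SL(2, ℤ)), S * T} :=
      Subgroup.subset_closure (by simp)
    have := Subgroup.mul_mem _ (Subgroup.inv_mem _ h1) h2
    rwa [inv_mul_cancel_left] at this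

lemma trace_conj (y g : SL(2, ℤ)) :
    ((y⁻¹ * g * y : SL(2, ℤ)) : Matrix (Fin 2) (Fin 2) ℤ).trace
      = (g : Matrix (Fin 2) (Fin 2) ℤ).trace := by
  rw [Matrix.SpecialLinearGroup.coe_mul, Matrix.SpecialLinearGroup.coe_mul,
    Matrix.trace_mul_cycle, ← Matrix.SpecialLinearGroup.coe_mul, mul_inv_cancel]
  simp

lemma neg_one_smul_coset (N : ℕ) (x : SL(2, ℤ) ⧸ Gamma0 N) : (-1 : SL(2, ℤ)) • x = x := by
  obtain ⟨g, rfl⟩ := QuotientGroup.mk_surjective x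
  have h2 : (-1 : SL(2, ℤ)) • ((g : SL(2, ℤ)) : SL(2, ℤ) ⧸ Gamma0 N)
      = (((-1 : SL(2, ℤ)) * g : SL(2, ℤ)) : SL(2, ℤ) ⧸ Gamma0 N) := rfl
  rw [h2, QuotientGroup.eq]
  have : ((-1 : SL(2, ℤ)) * g)⁻¹ * g = -1 := by
    rw [mul_inv_rev, mul_assoc]
    have h3 : (-1 : SL(2, ℤ))⁻¹ * g = g * (-1) := by
      have : (-1 : SL(2, ℤ))⁻¹ = -1 := by decide
      rw [this]; simp
    rw [h3, inv_mul_cancel_left]
  rw [this, Gamma0_mem]
  simp

lemma T_pow_smul_coset (N : ℕ) (x : SL(2, ℤ) ⧸ Gamma0 N) : (T ^ N : SL(2, ℤ)) • x = x := by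
  obtain ⟨g, rfl⟩ := QuotientGroup.mk_surjective x
  have h2 : (T ^ N : SL(2, ℤ)) • ((g : SL(2, ℤ)) : SL(2, ℤ) ⧸ Gamma0 N)
      = (((T ^ N : SL(2, ℤ)) * g : SL(2, ℤ)) : SL(2, ℤ) ⧸ Gamma0 N) := rfl
  rw [h2, eq_comm, QuotientGroup.eq]
  have hT : (T ^ N : SL(2, ℤ)) ∈ Gamma N := by
    have := ModularGroup_T_pow_mem_Gamma (N : ℤ) (N : ℤ) dvd_rfl
    simpa using this
  have hc : g⁻¹ * T ^ N * g⁻¹⁻¹ ∈ Gamma N := (Gamma_normal N).conj_mem _ hT g⁻¹
  rw [inv_inv] at hc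
  have hle : g⁻¹ * T ^ N * g ∈ Gamma0 N := by
    rw [Gamma_mem] at hc
    rw [Gamma0_mem]
    exact hc.2.2.1
  rwa [mul_assoc] at hle

lemma isKilled_S (N : ℕ) : IsKilled (Gamma0 N) (parabolicHoms ℂ (Gamma0 N) ℂ) S 2 where
  pos := by norm_num
  triv x := by
    have : (S : SL(2, ℤ)) ^ 2 = -1 := by decide
    rw [this, neg_one_smul_coset]
  kill φ hφ y h := by
    refine hφ ⟨_, h⟩ ?_
    show ((y⁻¹ * S ^ 2 * y : SL(2, ℤ)) : Matrix (Fin 2) (Fin 2) ℤ).trace ^ 2 = 4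
    rw [trace_conj]
    decide

lemma isKilled_ST (N : ℕ) : IsKilled (Gamma0 N) (parabolicHoms ℂ (Gamma0 N) ℂ) (S * T) 3 where
  pos := by norm_num
  triv x := by
    have : (S * T : SL(2, ℤ)) ^ 3 = -1 := by decide
    rw [this, neg_one_smul_coset]
  kill φ hφ y h := by
    refine hφ ⟨_, h⟩ ?_
    show ((y⁻¹ * (S * T) ^ 3 * y : SL(2, ℤ)) : Matrix (Fin 2) (Fin 2) ℤ).trace ^ 2 = 4
    rw [trace_conj]
    decide

lemma isKilled_T (N : ℕ) [NeZero N] :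
    IsKilled (Gamma0 N) (parabolicHoms ℂ (Gamma0 N) ℂ) T N where
  pos := Nat.pos_of_ne_zero (NeZero.ne N)
  triv x := T_pow_smul_coset N x
  kill φ hφ y h := by
    refine hφ ⟨_, h⟩ ?_
    show ((y⁻¹ * T ^ N * y : SL(2, ℤ)) : Matrix (Fin 2) (Fin 2) ℤ).trace ^ 2 = 4
    rw [trace_conj]
    have := ModularGroup.coe_T_zpow (N : ℤ)
    rw [zpow_natCast] at this
    rw [this, Matrix.trace_fin_two_of]
    norm_num

instance finite_parabolicHoms (N : ℕ) [NeZero N] :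
    Module.Finite ℂ (parabolicHoms ℂ (Gamma0 N) ℂ) :=
  finite_of_closure _ closure_S_ST

/-- The Euler characteristic bound. -/
theorem finrank_parabolicHoms_add_le (N : ℕ) [NeZero N] :
    finrank ℂ (parabolicHoms ℂ (Gamma0 N) ℂ)
      + Nat.card (MulAction.orbitRel.Quotient (Subgroup.zpowers (S : SL(2, ℤ)))
          (SL(2, ℤ) ⧸ Gamma0 N))
      + Nat.card (MulAction.orbitRel.Quotient (Subgroup.zpowers (S * T : SL(2, ℤ)))
          (SL(2, ℤ) ⧸ Gamma0 N))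
      + Nat.card (MulAction.orbitRel.Quotient (Subgroup.zpowers (T : SL(2, ℤ)))
          (SL(2, ℤ) ⧸ Gamma0 N))
      ≤ Nat.card (SL(2, ℤ) ⧸ Gamma0 N) + 2 := by
  have hT : (S : SL(2, ℤ))⁻¹ * (S * T) = T := inv_mul_cancel_left _ _
  have H := abstract_bound (parabolicHoms ℂ (Gamma0 N) ℂ) closure_S_ST
    (isKilled_S N) (isKilled_ST N) (kt := N) (by rw [hT]; exact isKilled_T N)
  rw [hT] at H
  exact H

lemma orderOf_S : orderOf (S : SL(2, ℤ)) = 4 := by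
  rw [orderOf_eq_iff (by norm_num)]
  refine ⟨by decide, ?_⟩
  intro m hm hpos
  interval_cases m <;> decide

lemma orderOf_ST : orderOf (S * T : SL(2, ℤ)) = 6 := by
  rw [orderOf_eq_iff (by norm_num)]
  refine ⟨by decide, ?_⟩
  intro m hm hpos
  interval_cases m <;> decide

lemma card_subtype_true (X : Type*) (p : X → Prop) (h : ∀ x, p x) :
    Nat.card {x : X // p x} = Nat.card X :=
  Nat.card_congr (Equiv.subtypeUnivEquiv h)

lemma card_subtype_congr (X : Type*) (p q : X → Prop) (h : ∀ x, p x ↔ q x) :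
    Nat.card {x : X // p x} = Nat.card {x : X // q x} :=
  Nat.card_congr (Equiv.subtypeEquivRight h)

theorem two_mul_card_orbits_S (N : ℕ) [NeZero N] :
    2 * Nat.card (MulAction.orbitRel.Quotient (Subgroup.zpowers (S : SL(2, ℤ)))
          (SL(2, ℤ) ⧸ Gamma0 N))
      = Nat.card (SL(2, ℤ) ⧸ Gamma0 N)
        + Nat.card {x : SL(2, ℤ) ⧸ Gamma0 N // (S : SL(2, ℤ)) • x = x} := by
  have hfin : IsOfFinOrder (S : SL(2, ℤ)) := by
    rw [← orderOf_pos_iff, orderOf_S]; norm_num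
  have B : _ = Nat.card (MulAction.orbitRel.Quotient (Subgroup.zpowers (S : SL(2, ℤ)))
          (SL(2, ℤ) ⧸ Gamma0 N)) * _ :=
    burnside_cyclic (X := SL(2, ℤ) ⧸ Gamma0 N) (S : SL(2, ℤ)) hfin
  rw [orderOf_S] at B
  have h2 : ∀ x : SL(2, ℤ) ⧸ Gamma0 N, (S : SL(2, ℤ)) ^ 2 • x = x := (isKilled_S N).triv
  simp only [Finset.sum_range_succ, Finset.sum_range_zero, zero_add] at B
  rw [card_subtype_true _ (fun x : SL(2, ℤ) ⧸ Gamma0 N => (S : SL(2, ℤ)) ^ 0 • x = x)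
      (fun x => by simp),
    card_subtype_true _ (fun x : SL(2, ℤ) ⧸ Gamma0 N => (S : SL(2, ℤ)) ^ 2 • x = x) h2,
    card_subtype_congr _ (fun x : SL(2, ℤ) ⧸ Gamma0 N => (S : SL(2, ℤ)) ^ 1 • x = x)
      (fun x => (S : SL(2, ℤ)) • x = x) (fun x => by simp),
    card_subtype_congr _ (fun x : SL(2, ℤ) ⧸ Gamma0 N => (S : SL(2, ℤ)) ^ 3 • x = x)
      (fun x => (S : SL(2, ℤ)) • x = x)
      (fun x => by rw [pow_succ' (S : SL(2, ℤ)) 2, mul_smul, h2])] at B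
  omega

theorem three_mul_card_orbits_ST (N : ℕ) [NeZero N] :
    3 * Nat.card (MulAction.orbitRel.Quotient (Subgroup.zpowers (S * T : SL(2, ℤ)))
          (SL(2, ℤ) ⧸ Gamma0 N))
      = Nat.card (SL(2, ℤ) ⧸ Gamma0 N)
        + 2 * Nat.card {x : SL(2, ℤ) ⧸ Gamma0 N // (S * T : SL(2, ℤ)) • x = x} := by
  have hfin : IsOfFinOrder (S * T : SL(2, ℤ)) := by
    rw [← orderOf_pos_iff, orderOf_ST]; norm_num
  have B : _ = Nat.card (MulAction.orbitRel.Quotient (Subgroup.zpowers (S * T : SL(2, ℤ)))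
          (SL(2, ℤ) ⧸ Gamma0 N)) * _ :=
    burnside_cyclic (X := SL(2, ℤ) ⧸ Gamma0 N) (S * T : SL(2, ℤ)) hfin
  rw [orderOf_ST] at B
  have h3 : ∀ x : SL(2, ℤ) ⧸ Gamma0 N, (S * T : SL(2, ℤ)) ^ 3 • x = x := (isKilled_ST N).triv
  have h2 : ∀ x : SL(2, ℤ) ⧸ Gamma0 N,
      (S * T : SL(2, ℤ)) ^ 2 • x = x ↔ (S * T : SL(2, ℤ)) • x = x := by
    intro x
    constructor
    · intro h
      have := h3 x
      rw [pow_succ' (S * T : SL(2, ℤ)) 2, mul_smul, h] at this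
      exact this
    · intro h
      rw [pow_two, mul_smul, h, h]
  simp only [Finset.sum_range_succ, Finset.sum_range_zero, zero_add] at B
  rw [card_subtype_true _ (fun x : SL(2, ℤ) ⧸ Gamma0 N => (S * T : SL(2, ℤ)) ^ 0 • x = x)
      (fun x => by simp),
    card_subtype_true _ (fun x : SL(2, ℤ) ⧸ Gamma0 N => (S * T : SL(2, ℤ)) ^ 3 • x = x) h3,
    card_subtype_congr _ (fun x : SL(2, ℤ) ⧸ Gamma0 N => (S * T : SL(2, ℤ)) ^ 1 • x = x)
      (fun x => (S * T : SL(2, ℤ)) • x = x) (fun x => by simp),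
    card_subtype_congr _ (fun x : SL(2, ℤ) ⧸ Gamma0 N => (S * T : SL(2, ℤ)) ^ 2 • x = x)
      (fun x => (S * T : SL(2, ℤ)) • x = x) h2,
    card_subtype_congr _ (fun x : SL(2, ℤ) ⧸ Gamma0 N => (S * T : SL(2, ℤ)) ^ 4 • x = x)
      (fun x => (S * T : SL(2, ℤ)) • x = x)
      (fun x => by rw [pow_succ' (S * T : SL(2, ℤ)) 3, mul_smul, h3]),
    card_subtype_congr _ (fun x : SL(2, ℤ) ⧸ Gamma0 N => (S * T : SL(2, ℤ)) ^ 5 • x = x)
      (fun x => (S * T : SL(2, ℤ)) • x = x)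
      (fun x => by
        rw [show (S * T : SL(2, ℤ)) ^ 5 = (S * T) ^ 2 * (S * T) ^ 3 by rw [← pow_add],
          mul_smul, h3, h2])] at B
  omega

/-- The dimension bound in terms of the four counts on `SL(2,ℤ) ⧸ Γ₀(N)`. -/
theorem six_mul_finrank_parabolicHoms_le (N : ℕ) [NeZero N] :
    6 * finrank ℂ (parabolicHoms ℂ (Gamma0 N) ℂ)
      + 3 * Nat.card {x : SL(2, ℤ) ⧸ Gamma0 N // (S : SL(2, ℤ)) • x = x}
      + 4 * Nat.card {x : SL(2, ℤ) ⧸ Gamma0 N // (S * T : SL(2, ℤ)) • x = x}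
      + 6 * Nat.card (MulAction.orbitRel.Quotient (Subgroup.zpowers (T : SL(2, ℤ)))
          (SL(2, ℤ) ⧸ Gamma0 N))
      ≤ Nat.card (SL(2, ℤ) ⧸ Gamma0 N) + 12 := by
  have h1 := finrank_parabolicHoms_add_le N
  have h2 := two_mul_card_orbits_S N
  have h3 := three_mul_card_orbits_ST N
  omega

/-- The bound by the genus formula, given the four combinatorial identities. -/
theorem finrank_parabolicHoms_le_of_counts (N : ℕ) [NeZero N]
    (C1 : Nat.card (SL(2, ℤ) ⧸ Gamma0 N) = ModularCurve.dedekindPsi N)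
    (C2 : Nat.card {x : SL(2, ℤ) ⧸ Gamma0 N // (S : SL(2, ℤ)) • x = x} = ModularCurve.nuTwo N)
    (C3 : Nat.card {x : SL(2, ℤ) ⧸ Gamma0 N // (S * T : SL(2, ℤ)) • x = x}
      = ModularCurve.nuThree N)
    (C4 : Nat.card (MulAction.orbitRel.Quotient (Subgroup.zpowers (T : SL(2, ℤ)))
          (SL(2, ℤ) ⧸ Gamma0 N)) = ModularCurve.cuspCount N) :
    (finrank ℂ (parabolicHoms ℂ (Gamma0 N) ℂ) : ℚ) ≤ 2 * ModularCurve.genusFormula N := by
  have h := six_mul_finrank_parabolicHoms_le N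
  rw [C1, C2, C3, C4] at h
  have h' : (6 * finrank ℂ (parabolicHoms ℂ (Gamma0 N) ℂ) + 3 * ModularCurve.nuTwo N
      + 4 * ModularCurve.nuThree N + 6 * ModularCurve.cuspCount N : ℚ)
      ≤ ModularCurve.dedekindPsi N + 12 := by exact_mod_cast h
  unfold ModularCurve.genusFormula
  linarith

end Fermat.Agent.S21lib
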