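import Fermat.Agent.S21.ParabolicBound
import Fermat.Agent.S20.Comb
import Fermat.Prelude.Def_ModularCurve_GenusNumerics

set_option autoImplicit false

open Module ModularGroup ModularCurve.Period CongruenceSubgroup
open scoped MatrixGroups

namespace Fermat.Agent.S21h9

lemma neg_one_mem_Gamma0 (N : ℕ) : (-1 : SL(2, ℤ)) ∈ Gamma0 N := by
  simp [Gamma0_mem]

instance finite_quot_Gamma0 (N : ℕ) [NeZero N] : Finite (SL(2, ℤ) ⧸ Gamma0 N) := by
  apply Nat.finite_of_card_ne_zero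
  rw [Fermat.Agent.S20lib.card_quot_Gamma0]
  unfold ModularCurve.dedekindPsi
  intro h
  rw [Finset.sum_eq_zero_iff] at h
  have := h 1 (by simp [NeZero.ne N])
  simp [NeZero.ne N] at this

theorem finiteDimensional_parabolicHoms_Gamma0 (N : ℕ) [NeZero N] :
    FiniteDimensional ℂ (parabolicHoms ℂ (Gamma0 N) ℂ) :=
  finiteDimensional_parabolicHoms (Gamma0 N) (neg_one_mem_Gamma0 N)

/-- The algebraic half of Eichler–Shimura: `dim H¹_par(Γ₀(N), ℂ) ≤ 2 g(X₀(N))`. -/
theorem finrank_parabolicHoms_Gamma0_le (N : ℕ) [NeZero N] :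
    (finrank ℂ (parabolicHoms ℂ (Gamma0 N) ℂ) : ℚ) ≤ 2 * ModularCurve.genusFormula N := by
  have h := six_mul_finrank_parabolicHoms_le (Gamma0 N) (neg_one_mem_Gamma0 N)
  have h4 : Nat.card (CuspQ (Gamma0 N)) = ModularCurve.cuspCount N :=
    Fermat.Agent.S20lib.card_orbits_T N
  rw [Fermat.Agent.S20lib.card_quot_Gamma0, Fermat.Agent.S20lib.card_fixed_S,
    Fermat.Agent.S20lib.card_fixed_ST, h4] at h
  have h' : (6 * ((finrank ℂ (parabolicHoms ℂ (Gamma0 N) ℂ) : ℚ) + ModularCurve.cuspCount N)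
      + 3 * ModularCurve.nuTwo N + 4 * ModularCurve.nuThree N : ℚ)
      ≤ ModularCurve.dedekindPsi N + 12 := by
    exact_mod_cast h
  unfold ModularCurve.genusFormula
  linarith

end Fermat.Agent.S21h9
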