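import Mathlib
import Fermat.Prelude.Def_ModularCurve_PeriodHomPair

set_option autoImplicit false
set_option linter.unusedSimpArgs false

open UpperHalfPlane CongruenceSubgroup Filter Topology ModularCurve ModularCurve.Period
open scoped MatrixGroups ComplexConjugate Manifold ContDiff

namespace Fermat.Agent.S21h9

/-- Reflection `z ↦ -conj z` of the upper half plane. -/
noncomputable def sig (z : ℍ) : ℍ := ⟨-conj (z : ℂ), by simpa using z.im_pos⟩

@[simp] lemma coe_sig (z : ℍ) : ((sig z : ℍ) : ℂ) = -conj (z : ℂ) := rfl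

@[simp] lemma sig_sig (z : ℍ) : sig (sig z) = z := by
  ext; simp

@[simp] lemma im_sig (z : ℍ) : (sig z).im = z.im := by
  have : ((sig z : ℍ) : ℂ).im = (z : ℂ).im := by simp
  exact this

lemma sig_smul (γ : SL(2, ℤ)) (z : ℍ) : sig (γ • z) = jConjSL γ • sig z := by
  ext
  rw [coe_sig, coe_specialLinearGroup_apply, coe_specialLinearGroup_apply, coe_sig]
  simp only [jConjSL_coe, jConjMat_apply_zero_zero, jConjMat_apply_zero_one,
    jConjMat_apply_one_zero, jConjMat_apply_one_one]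
  simp only [map_div₀, map_add, map_mul, algebraMap_int_eq, eq_intCast,
    Int.cast_neg, Complex.ofReal_neg, Complex.ofReal_intCast, map_intCast]
  rw [← neg_div]
  congr 1 <;> ring

lemma tendsto_sig : Tendsto sig atImInfty atImInfty := by
  rw [atImInfty, tendsto_comap_iff]
  have : im ∘ sig = im := by ext z; simp
  rw [this]
  exact tendsto_comap

/-- "Good" primitives: holomorphic, equivariant up to constants, with limits at all cusps. -/
structure Good (N : ℕ) (H : ℍ → ℂ) : Prop where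
  diff : ∀ τ : ℍ, DifferentiableAt ℂ (H ∘ ofComplex) ↑τ
  equiv : IsEquivariantPrimitive (Gamma0 N) H
  lim : ∀ δ : SL(2, ℤ), ∃ L : ℂ, Tendsto (fun w : ℍ => H (δ • w)) atImInfty (𝓝 L)

lemma Good.of_primitive {N : ℕ} {f : CuspForm (Gamma0 N) 2} {F : ℍ → ℂ}
    (hF : HasEquivariantPrimitive N f F) : Good N F :=
  ⟨fun τ => (hF.1 τ).differentiableAt, hF.2.2.1, hF.2.2.2⟩

lemma Good.add {N : ℕ} {H K : ℍ → ℂ} (hH : Good N H) (hK : Good N K) :
    Good N (fun z => H z + K z) := by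
  refine ⟨fun τ => (hH.diff τ).add (hK.diff τ), fun γ => ?_, fun δ => ?_⟩
  · obtain ⟨c, hc⟩ := hH.equiv γ
    obtain ⟨d, hd⟩ := hK.equiv γ
    exact ⟨c + d, fun z => by rw [← hc z, ← hd z]; ring⟩
  · obtain ⟨L, hL⟩ := hH.lim δ
    obtain ⟨M, hM⟩ := hK.lim δ
    exact ⟨L + M, hL.add hM⟩

lemma Good.const_mul {N : ℕ} {H : ℍ → ℂ} (hH : Good N H) (a : ℂ) :
    Good N (fun z => a * H z) := by
  refine ⟨fun τ => (hH.diff τ).const_mul a, fun γ => ?_, fun δ => ?_⟩
  · obtain ⟨c, hc⟩ := hH.equiv γ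
    exact ⟨a * c, fun z => by rw [← hc z]; ring⟩
  · obtain ⟨L, hL⟩ := hH.lim δ
    exact ⟨a * L, hL.const_mul a⟩

lemma Good.star {N : ℕ} {H : ℍ → ℂ} (hH : Good N H) :
    Good N (fun z => conj (H (sig z))) := by
  refine ⟨fun τ => ?_, fun γ => ?_, fun δ => ?_⟩
  · have h1 : DifferentiableAt ℂ (H ∘ ofComplex) (-(conj (τ : ℂ))) := hH.diff (sig τ)
    have h2 : DifferentiableAt ℂ (fun x : ℂ => (H ∘ ofComplex) (-x)) (conj (τ : ℂ)) := by
      exact DifferentiableAt.comp (conj (τ : ℂ)) (f := fun x : ℂ => -x) h1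
        differentiableAt_id.neg
    have h3 := h2.conj_conj
    rw [Complex.conj_conj] at h3
    refine h3.congr_of_eventuallyEq ?_
    filter_upwards [isOpen_upperHalfPlaneSet.mem_nhds τ.im_pos] with x hx
    have hx' : 0 < (-(conj x)).im := by simpa using hx
    simp only [Function.comp_apply, ofComplex_apply_of_im_pos hx, ofComplex_apply_of_im_pos hx']
    rfl
  · obtain ⟨c, hc⟩ := hH.equiv (jConjGamma0 N γ)
    refine ⟨conj c, fun z => ?_⟩
    rw [← hc (sig z), sig_smul, map_sub]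
    rfl
  · obtain ⟨L, hL⟩ := hH.lim (jConjSL δ)
    refine ⟨conj L, ?_⟩
    have := (Complex.continuous_conj.tendsto L).comp (hL.comp tendsto_sig)
    refine this.congr fun w => ?_
    simp only [Function.comp_apply, sig_smul]


lemma conj_T_pow_mem (N : ℕ) (δ : SL(2, ℤ)) :
    δ * ModularGroup.T ^ (N : ℤ) * δ⁻¹ ∈ Gamma0 N := by
  have h1 : ModularGroup.T ^ (N : ℤ) ∈ Gamma N := by
    rw [Gamma_mem, ModularGroup.coe_T_zpow]; simp
  have h2 := (Gamma_normal N).conj_mem _ h1 δ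
  rw [Gamma_mem] at h2
  rw [Gamma0_mem]
  exact h2.2.2.1

lemma tendsto_T_zpow_smul (n : ℤ) :
    Tendsto (fun w : ℍ => ModularGroup.T ^ n • w) atImInfty atImInfty := by
  rw [atImInfty, tendsto_comap_iff]
  have : im ∘ (fun w : ℍ => ModularGroup.T ^ n • w) = im := by
    ext z; exact ModularGroup.im_T_zpow_smul z n
  rw [this]
  exact tendsto_comap

lemma Good.periodic {N : ℕ} {H : ℍ → ℂ} (hH : Good N H) (δ : SL(2, ℤ)) (w : ℍ) :
    H (δ • (ModularGroup.T ^ (N : ℤ) • w)) = H (δ • w) := by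
  obtain ⟨c, hc⟩ := hH.equiv ⟨_, conj_T_pow_mem N δ⟩
  obtain ⟨L, hL⟩ := hH.lim δ
  have key : ∀ w : ℍ, H (δ • (ModularGroup.T ^ (N : ℤ) • w)) - H (δ • w) = c := by
    intro w
    rw [← hc (δ • w)]
    congr 2
    simp only [mul_smul, inv_smul_smul]
  have h0 : Tendsto (fun w : ℍ => H (δ • (ModularGroup.T ^ (N : ℤ) • w)) - H (δ • w)) atImInfty
      (𝓝 (L - L)) := (hL.comp (tendsto_T_zpow_smul (N : ℤ))).sub hL
  have h1 : Tendsto (fun _ : ℍ => c) atImInfty (𝓝 (L - L)) := h0.congr key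
  have h2 : c = L - L := tendsto_nhds_unique tendsto_const_nhds h1
  have := key w
  rw [h2, sub_self, sub_eq_zero] at this
  exact this

lemma Good.mdiff {N : ℕ} {H : ℍ → ℂ} (hH : Good N H) : MDiff H :=
  fun τ => mdifferentiableAt_iff.mpr (hH.diff τ)

lemma Good.diff_smul {N : ℕ} {H : ℍ → ℂ} (hH : Good N H) (δ : SL(2, ℤ)) {x : ℂ}
    (hx : 0 < x.im) : DifferentiableAt ℂ (fun x : ℂ => H (δ • ofComplex x)) x := by
  have h1 : MDiff (fun w : ℍ => δ • w) := by
    have := mdifferentiable_smul (g := (δ : GL (Fin 2) ℝ)) (by simp)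
    exact this
  have h2 : MDiff (fun w : ℍ => H (δ • w)) := hH.mdiff.comp h1
  exact mdifferentiableAt_iff.mp (h2 ⟨x, hx⟩)

lemma Good.periodic_comp {N : ℕ} {H : ℍ → ℂ} (hH : Good N H) (δ : SL(2, ℤ)) :
    Function.Periodic (fun x : ℂ => H (δ • ofComplex x)) ((N : ℝ) : ℂ) := by
  intro x
  by_cases hx : 0 < x.im
  · have hx' : 0 < (x + ((N : ℝ) : ℂ)).im := by simpa using hx
    have : ofComplex (x + ((N : ℝ) : ℂ)) = ModularGroup.T ^ (N : ℤ) • ofComplex x := by
      ext
      rw [ModularGroup.coe_T_zpow_smul_eq, ofComplex_apply_of_im_pos hx,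
        ofComplex_apply_of_im_pos hx']
      simp
    simp only [this, hH.periodic]
  · have hx0 : x.im ≤ 0 := not_lt.mp hx
    have hx' : (x + ((N : ℝ) : ℂ)).im ≤ 0 := by simpa using hx0
    simp only [ofComplex_apply_eq_of_im_nonpos hx' hx0]

/-- `exp ∘ H` constant implies `H` constant. -/
lemma Good.const_of_exp_const {N : ℕ} {H : ℍ → ℂ} (hH : Good N H) (C : ℂ)
    (hC : ∀ z : ℍ, Complex.exp (H z) = C) (z w : ℍ) : H z = H w := by
  have hpre : IsPreconnected {z : ℂ | 0 < z.im} :=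
    (Complex.isConnected_of_upperHalfPlane subset_rfl (by grind)).isPreconnected
  have hd : DifferentiableOn ℂ (H ∘ ofComplex) {z : ℂ | 0 < z.im} :=
    fun x hx => (hH.diff ⟨x, hx⟩).differentiableWithinAt
  have hz : Set.EqOn (deriv (H ∘ ofComplex)) 0 {z : ℂ | 0 < z.im} := by
    intro x hx
    have h1 : HasDerivAt (H ∘ ofComplex) (deriv (H ∘ ofComplex) x) x :=
      (hH.diff ⟨x, hx⟩).hasDerivAt
    have h2 := h1.cexp
    have h3 : (fun x : ℂ => Complex.exp ((H ∘ ofComplex) x)) = fun _ => C := by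
      funext y; exact hC _
    rw [h3] at h2
    have h4 := h2.unique (hasDerivAt_const x C)
    simpa [Complex.exp_ne_zero] using h4
  have := isOpen_upperHalfPlaneSet.is_const_of_deriv_eq_zero hpre hd hz z.im_pos w.im_pos
  simpa using this


open Function.Periodic in
/-- Maximum principle on `X₀(N)`: a good primitive whose real part is `Γ₀(N)`-invariant is
constant. -/
theorem Good.const_of_re {N : ℕ} [NeZero N] {H : ℍ → ℂ} (hH : Good N H)
    (hre : ∀ (γ : Gamma0 N) (z : ℍ), (H ((γ : SL(2, ℤ)) • z)).re = (H z).re) (z w : ℍ) :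
    H z = H w := by
  have hN : (0 : ℝ) < (N : ℝ) := by exact_mod_cast Nat.pos_of_ne_zero (NeZero.ne N)
  set e : SL(2, ℤ) → ℂ → ℂ := fun δ x => Complex.exp (H (δ • ofComplex x)) with he
  set c : SL(2, ℤ) → ℂ → ℂ := fun δ => cuspFunction (N : ℝ) (e δ) with hc
  have hper : ∀ δ, Function.Periodic (e δ) ((N : ℝ) : ℂ) := by
    intro δ x
    simp only [he]
    exact congrArg Complex.exp (hH.periodic_comp δ x)
  have hdiff : ∀ δ (x : ℂ), 0 < x.im → DifferentiableAt ℂ (e δ) x :=
    fun δ x hx => (hH.diff_smul δ hx).cexp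
  have hbd : ∀ δ, BoundedAtFilter (comap Complex.im atTop) (e δ) := by
    intro δ
    obtain ⟨L, hL⟩ := hH.lim δ
    have h1 : Tendsto (e δ) (comap Complex.im atTop) (𝓝 (Complex.exp L)) :=
      (Complex.continuous_exp.tendsto L).comp (hL.comp tendsto_comap_im_ofComplex)
    exact h1.isBigO_one ℝ
  have hev : ∀ δ, ∀ᶠ x in comap Complex.im atTop, DifferentiableAt ℂ (e δ) x := by
    intro δ
    have : ∀ᶠ x : ℂ in comap Complex.im atTop, 0 < x.im :=
      tendsto_comap.eventually (eventually_gt_atTop 0)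
    filter_upwards [this] with x hx using hdiff δ x hx
  have hcd : ∀ δ, DifferentiableOn ℂ (c δ) (Metric.ball 0 1) := by
    intro δ q hq
    have hq1 : ‖q‖ < 1 := mem_ball_zero_iff.mp hq
    rcases eq_or_ne q 0 with rfl | hq0
    · exact (differentiableAt_cuspFunction_zero hN (hper δ) (hev δ) (hbd δ)).differentiableWithinAt
    · have h1 := differentiableAt_cuspFunction hN.ne' (hper δ)
        (hdiff δ _ (im_invQParam_pos_of_norm_lt_one hN hq1 hq0))
      rw [qParam_right_inv hN.ne' hq0] at h1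
      exact h1.differentiableWithinAt
  have hval : ∀ δ (w : ℍ), c δ (qParam (N : ℝ) w) = Complex.exp (H (δ • w)) := by
    intro δ w
    simp only [hc]
    rw [eq_cuspFunction hN.ne' (hper δ)]
    simp only [he, ofComplex_apply]
  set r : ℝ := Real.exp (-Real.pi / N) with hr
  have hr0 : 0 ≤ r := (Real.exp_pos _).le
  have hr1 : r < 1 := by
    rw [hr, Real.exp_lt_one_iff]
    exact div_neg_of_neg_of_pos (by simpa using Real.pi_pos) hN
  have hqr : ∀ w : ℍ, 1 / 2 ≤ w.im → qParam (N : ℝ) w ∈ Metric.closedBall (0 : ℂ) r := by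
    intro w hw
    rw [mem_closedBall_zero_iff, norm_qParam, hr, Real.exp_le_exp]
    apply div_le_div_of_nonneg_right _ hN.le
    have : (w : ℂ).im = w.im := rfl
    rw [this]
    nlinarith [Real.pi_pos]
  have hmax : ∀ δ, ∃ q ∈ Metric.closedBall (0 : ℂ) r,
      IsMaxOn (fun q => ‖c δ q‖) (Metric.closedBall (0 : ℂ) r) q := by
    intro δ
    exact (isCompact_closedBall (0 : ℂ) r).exists_isMaxOn (Metric.nonempty_closedBall.mpr hr0)
      ((hcd δ).continuousOn.mono (Metric.closedBall_subset_ball hr1)).norm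
  choose q hq hqmax using hmax
  obtain ⟨ρ₀, hρ₀⟩ := Finite.exists_max
    (fun ρ : SL(2, ℤ) ⧸ Gamma0 N => ‖c (ρ.out)⁻¹ (q (ρ.out)⁻¹)‖)
  set δ₀ : SL(2, ℤ) := (ρ₀.out)⁻¹ with hδ₀
  have hbound : ∀ z : ℍ, ‖Complex.exp (H z)‖ ≤ ‖c δ₀ (q δ₀)‖ := by
    intro z
    obtain ⟨γ₀, hγ₀⟩ := ModularGroup.exists_one_half_le_im_smul z
    obtain ⟨g, hg⟩ := QuotientGroup.mk_out_eq_mul (Gamma0 N) γ₀
    refine le_trans ?_ (hρ₀ (QuotientGroup.mk γ₀))
    refine le_trans ?_ (hqmax _ (hqr _ hγ₀))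
    simp only
    rw [hval, hg, Complex.norm_exp, Complex.norm_exp]
    have : (γ₀ * (g : SL(2, ℤ)))⁻¹ • γ₀ • z = ((g⁻¹ : Gamma0 N) : SL(2, ℤ)) • z := by
      rw [mul_inv_rev, mul_smul, inv_smul_smul]; rfl
    rw [this, hre]
  have hmaxball : IsMaxOn (norm ∘ c δ₀) (Metric.ball 0 1) (q δ₀) := by
    intro x hx
    have hx1 : ‖x‖ < 1 := mem_ball_zero_iff.mp hx
    simp only [Set.mem_ofPred_eq, Function.comp_apply]
    rcases eq_or_ne x 0 with rfl | hx0
    · exact hqmax δ₀ (Metric.mem_closedBall_self hr0)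
    · have h1 := hval δ₀ ⟨_, im_invQParam_pos_of_norm_lt_one hN hx1 hx0⟩
      rw [coe_mk, qParam_right_inv hN.ne' hx0] at h1
      rw [h1]
      exact hbound _
  have hconst := Complex.eq_const_of_exists_max (hcd δ₀)
    (Metric.closedBall_subset_ball hr1 (hq δ₀)) hmaxball
  refine hH.const_of_exp_const (c δ₀ (q δ₀)) (fun z => ?_) z w
  have h1 := hval δ₀ (δ₀⁻¹ • z)
  rw [smul_inv_smul] at h1
  rw [← h1]
  exact hconst (mem_ball_zero_iff.mpr (norm_qParam_lt_one hN (δ₀⁻¹ • z).im_pos))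


lemma period_jConj {N : ℕ} {F : ℍ → ℂ} (hF : IsEquivariantPrimitive (Gamma0 N) F)
    (γ : Gamma0 N) (z : ℍ) :
    F (sig ((γ : SL(2, ℤ)) • z)) - F (sig z) = hF.period (jConjGamma0 N γ) := by
  rw [sig_smul, ← hF.sub_eq_period (jConjGamma0 N γ) (sig z)]
  rfl

/-- **Injectivity core of Eichler–Shimura** for weight 2 and `Γ₀(N)`. -/
theorem injectivity_core (N : ℕ) [NeZero N] (f g : CuspForm (Gamma0 N) 2) (F G : ℍ → ℂ)
    (hF : HasEquivariantPrimitive N f F) (hG : HasEquivariantPrimitive N g G)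
    (h : ∀ γ : Gamma0 N, (hF.2.2.1.period γ + hF.2.2.1.period (jConjGamma0 N γ))
        + (hG.2.2.1.period γ - hG.2.2.1.period (jConjGamma0 N γ)) = 0) :
    f = 0 ∧ g = 0 := by
  have gF := Good.of_primitive hF
  have gG := Good.of_primitive hG
  have gA : Good N (fun z => F z + G z) := gF.add gG
  have gB : Good N (fun z => F z + (-1) * G z) := gF.add (gG.const_mul (-1))
  have gBs := gB.star
  have g1 := gA.add gBs
  have g2 := (gA.add (gBs.const_mul (-1))).const_mul (-Complex.I)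
  -- invariance of `u = A + B ∘ sig`
  have hu : ∀ (γ : Gamma0 N) (z : ℍ),
      (F ((γ : SL(2, ℤ)) • z) + G ((γ : SL(2, ℤ)) • z))
        + (F (sig ((γ : SL(2, ℤ)) • z)) + (-1) * G (sig ((γ : SL(2, ℤ)) • z)))
      = (F z + G z) + (F (sig z) + (-1) * G (sig z)) := by
    intro γ z
    have h1 := hF.2.2.1.sub_eq_period γ z
    have h2 := hG.2.2.1.sub_eq_period γ z
    have h3 := period_jConj hF.2.2.1 γ z
    have h4 := period_jConj hG.2.2.1 γ z
    linear_combination h γ + h1 + h2 + h3 - h4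
  have c1 := g1.const_of_re (fun γ z => by
    have := congrArg Complex.re (hu γ z)
    simpa using this)
  have c2 := g2.const_of_re (fun γ z => by
    have := congrArg Complex.im (hu γ z)
    simp only [Complex.add_im, Complex.mul_im, Complex.neg_re, Complex.one_re, Complex.neg_im,
      Complex.one_im, neg_zero, zero_mul, add_zero, neg_mul, one_mul] at this
    simp only [Complex.mul_re, Complex.neg_re, Complex.I_re, Complex.neg_im, Complex.I_im,
      Complex.add_re, Complex.add_im, Complex.mul_im, Complex.one_re, Complex.one_im,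
      Complex.conj_re, Complex.conj_im, neg_zero, zero_mul, add_zero, neg_mul, one_mul, zero_sub,
      neg_neg, sub_zero]
    linarith)
  have cA : ∀ z w : ℍ, F z + G z = F w + G w := by
    intro z w
    have h1 := c1 z w
    have h2 := c2 z w
    have h3 := mul_left_cancel₀ (by simp : -Complex.I ≠ 0) h2
    linear_combination (1 / 2 : ℂ) * h1 + (1 / 2 : ℂ) * h3
  have cBs : ∀ z w : ℍ, conj (F (sig z) + (-1) * G (sig z))
      = conj (F (sig w) + (-1) * G (sig w)) := by
    intro z w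
    have h1 := c1 z w
    have h2 := c2 z w
    have h3 := mul_left_cancel₀ (by simp : -Complex.I ≠ 0) h2
    linear_combination (1 / 2 : ℂ) * h1 - (1 / 2 : ℂ) * h3
  have cB : ∀ z w : ℍ, F z + (-1) * G z = F w + (-1) * G w := by
    intro z w
    have := (starRingEnd ℂ).injective (cBs (sig z) (sig w))
    simpa using this
  have hsum : ∀ τ : ℍ, f τ + g τ = 0 := by
    intro τ
    have h1 : HasDerivAt (fun x : ℂ => (F ∘ ofComplex) x + (G ∘ ofComplex) x) (f τ + g τ) τ :=
      (hF.1 τ).add (hG.1 τ)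
    have h2 : (fun x : ℂ => (F ∘ ofComplex) x + (G ∘ ofComplex) x)
        = fun _ => F UpperHalfPlane.I + G UpperHalfPlane.I := by
      funext x; exact cA _ _
    rw [h2] at h1
    exact h1.unique (hasDerivAt_const _ _)
  have hdif : ∀ τ : ℍ, f τ + (-1) * g τ = 0 := by
    intro τ
    have h1 : HasDerivAt (fun x : ℂ => (F ∘ ofComplex) x + (-1) * (G ∘ ofComplex) x)
        (f τ + (-1) * g τ) τ := (hF.1 τ).add ((hG.1 τ).const_mul (-1))
    have h2 : (fun x : ℂ => (F ∘ ofComplex) x + (-1) * (G ∘ ofComplex) x)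
        = fun _ => F UpperHalfPlane.I + (-1) * G UpperHalfPlane.I := by
      funext x; exact cB _ _
    rw [h2] at h1
    exact h1.unique (hasDerivAt_const _ _)
  constructor
  · ext τ
    have h1 := hsum τ
    have h2 := hdif τ
    simp only [FunLike.coe_zero, Pi.zero_apply]
    linear_combination (1 / 2 : ℂ) * h1 + (1 / 2 : ℂ) * h2
  · ext τ
    have h1 := hsum τ
    have h2 := hdif τ
    simp only [FunLike.coe_zero, Pi.zero_apply]
    linear_combination (1 / 2 : ℂ) * h1 - (1 / 2 : ℂ) * h2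

end Fermat.Agent.S21h9
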