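import Mathlib

set_option autoImplicit false

open Module

namespace Fermat.Agent.S21h9

section Abstract

variable {G X : Type*} [Group G] [MulAction G X]

/-- Precomposition with the action of `g` on functions `X → ℂ`. -/
noncomputable def actL (g : G) : (X → ℂ) →ₗ[ℂ] (X → ℂ) :=
  LinearMap.funLeft ℂ ℂ (fun x => g • x)

lemma actL_apply (g : G) (η : X → ℂ) (x : X) : actL g η x = η (g • x) := rfl

lemma actL_mul_actL (g h : G) :
    (actL g : (X → ℂ) →ₗ[ℂ] (X → ℂ)) * actL h = actL (h * g) := by
  ext η x
  simp [actL_apply, mul_smul]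

variable [Fintype X]

lemma trace_actL (g : G) :
    LinearMap.trace ℂ (X → ℂ) (actL g) = (Nat.card {x : X // g • x = x} : ℂ) := by
  classical
  rw [LinearMap.trace_eq_matrix_trace ℂ (Pi.basisFun ℂ X), LinearMap.toMatrix_eq_toMatrix',
    Matrix.trace]
  simp only [Matrix.diag_apply, LinearMap.toMatrix'_apply, actL_apply]
  rw [Nat.card_eq_fintype_card, Fintype.card_subtype, Finset.card_filter]
  push_cast
  exact Finset.sum_congr rfl (fun i _ => by rw [Pi.single_apply])

lemma finrank_range_of_idem (P : (X → ℂ) →ₗ[ℂ] (X → ℂ)) (hP : IsIdempotentElem P) :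
    (finrank ℂ (LinearMap.range P) : ℂ) = LinearMap.trace ℂ (X → ℂ) P :=
  ((LinearMap.IsIdempotentElem.isProj_range P hP).trace).symm

/-- The two-term relations. -/
noncomputable def K2 (s : G) : Submodule ℂ (X → ℂ) := LinearMap.ker (1 + actL s)

/-- The three-term relations. -/
noncomputable def K3 (r : G) : Submodule ℂ (X → ℂ) :=
  LinearMap.ker (1 + actL r + actL (r * r))

omit [Fintype X] in
lemma mem_K2 (s : G) (η : X → ℂ) : η ∈ K2 s ↔ ∀ x, η x + η (s • x) = 0 := by
  simp only [K2, LinearMap.mem_ker]
  constructor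
  · intro h x
    have := congrFun h x
    simpa [actL_apply] using this
  · intro h
    ext x
    simpa [actL_apply] using h x

omit [Fintype X] in
lemma mem_K3 (r : G) (η : X → ℂ) :
    η ∈ K3 r ↔ ∀ x, η x + η (r • x) + η (r • r • x) = 0 := by
  simp only [K3, LinearMap.mem_ker]
  constructor
  · intro h x
    have := congrFun h x
    simpa [actL_apply, mul_smul] using this
  · intro h
    ext x
    simpa [actL_apply, mul_smul] using h x

lemma two_mul_finrank_K2 (s : G) (hs : ∀ x : X, s • s • x = x) :
    2 * finrank ℂ (K2 (X := X) s) + Nat.card {x : X // s • x = x} = Fintype.card X := by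
  classical
  have hss : (actL s : (X → ℂ) →ₗ[ℂ] (X → ℂ)) * actL s = 1 := by
    ext η x
    simp [actL_apply, hs]
  set P : (X → ℂ) →ₗ[ℂ] (X → ℂ) := (2⁻¹ : ℂ) • (1 + actL s) with hPdef
  have hP : IsIdempotentElem P := by
    unfold IsIdempotentElem
    rw [hPdef, smul_mul_smul_comm, mul_add, add_mul, add_mul, hss]
    simp only [one_mul, mul_one]
    rw [← sub_eq_zero]
    module
  have hker : LinearMap.ker P = K2 s := by
    ext η
    simp only [hPdef, K2, LinearMap.mem_ker, LinearMap.smul_apply, smul_eq_zero]
    norm_num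
  have h1 := finrank_range_of_idem P hP
  have h2 : LinearMap.trace ℂ (X → ℂ) P
      = 2⁻¹ * ((Fintype.card X : ℂ) + (Nat.card {x : X // s • x = x} : ℂ)) := by
    rw [hPdef, map_smul, map_add, trace_actL, LinearMap.trace_one, finrank_fintype_fun_eq_card,
      smul_eq_mul]
  have h3 := LinearMap.finrank_range_add_finrank_ker P
  rw [hker, finrank_fintype_fun_eq_card] at h3
  rw [h2] at h1
  have h4 : (2 * finrank ℂ (LinearMap.range P) : ℂ)
      = ((Fintype.card X + Nat.card {x : X // s • x = x} : ℕ) : ℂ) := by
    rw [h1]; push_cast; ring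
  have h5 : 2 * finrank ℂ (LinearMap.range P) = Fintype.card X + Nat.card {x : X // s • x = x} := by
    exact_mod_cast h4
  omega

lemma three_mul_finrank_K3 (r : G) (hr : ∀ x : X, r • r • r • x = x) :
    3 * finrank ℂ (K3 (X := X) r) + 2 * Nat.card {x : X // r • x = x} = 2 * Fintype.card X := by
  classical
  have e1 : (actL r : (X → ℂ) →ₗ[ℂ] (X → ℂ)) * actL r = actL (r * r) := actL_mul_actL r r
  have e2 : (actL r : (X → ℂ) →ₗ[ℂ] (X → ℂ)) * actL (r * r) = 1 := by
    ext η x
    simp [actL_apply, mul_smul, hr]
  have e3 : (actL (r * r) : (X → ℂ) →ₗ[ℂ] (X → ℂ)) * actL r = 1 := by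
    ext η x
    simp [actL_apply, mul_smul, hr]
  have e4 : (actL (r * r) : (X → ℂ) →ₗ[ℂ] (X → ℂ)) * actL (r * r) = actL r := by
    ext η x
    simp [actL_apply, mul_smul, hr]
  set P : (X → ℂ) →ₗ[ℂ] (X → ℂ) := (3⁻¹ : ℂ) • (1 + actL r + actL (r * r)) with hPdef
  have hP : IsIdempotentElem P := by
    unfold IsIdempotentElem
    rw [hPdef, smul_mul_smul_comm]
    simp only [mul_add, add_mul, e1, e2, e3, e4, one_mul, mul_one]
    rw [← sub_eq_zero]
    module
  have hker : LinearMap.ker P = K3 r := by
    ext η
    simp only [hPdef, K3, LinearMap.mem_ker, LinearMap.smul_apply, smul_eq_zero]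
    norm_num
  have hfix : Nat.card {x : X // (r * r) • x = x} = Nat.card {x : X // r • x = x} := by
    apply Nat.card_congr
    refine Equiv.subtypeEquivRight (fun x => ?_)
    constructor
    · intro h
      rw [mul_smul] at h
      calc r • x = r • (r • r • x) := by rw [h]
        _ = x := hr x
    · intro h
      rw [mul_smul, h, h]
  have h1 := finrank_range_of_idem P hP
  have h2 : LinearMap.trace ℂ (X → ℂ) P
      = 3⁻¹ * ((Fintype.card X : ℂ) + 2 * (Nat.card {x : X // r • x = x} : ℂ)) := by
    rw [hPdef, map_smul, map_add, map_add, trace_actL, trace_actL, hfix, LinearMap.trace_one,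
      finrank_fintype_fun_eq_card, smul_eq_mul]
    ring
  have h3 := LinearMap.finrank_range_add_finrank_ker P
  rw [hker, finrank_fintype_fun_eq_card] at h3
  rw [h2] at h1
  have h4 : (3 * finrank ℂ (LinearMap.range P) : ℂ)
      = ((Fintype.card X + 2 * Nat.card {x : X // r • x = x} : ℕ) : ℂ) := by
    rw [h1]; push_cast; ring
  have h5 : 3 * finrank ℂ (LinearMap.range P)
      = Fintype.card X + 2 * Nat.card {x : X // r • x = x} := by
    exact_mod_cast h4
  omega

omit [Fintype X] in
/-- The sum-zero hyperplane is contained in the sum of the two relation spaces. -/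
lemma single_sub_single_mem [DecidableEq X] (s r : G) (hgen : Subgroup.closure {s, r} = ⊤)
    (hs : ∀ x : X, s • s • x = x) (hr : ∀ x : X, r • r • r • x = x) (g : G) (y : X) :
    (Pi.single (g • y) (1 : ℂ) - Pi.single y (1 : ℂ) : X → ℂ) ∈ K2 (X := X) s ⊔ K3 (X := X) r := by
  have hg : g ∈ Subgroup.closure {s, r} := by rw [hgen]; trivial
  induction hg using Subgroup.closure_induction generalizing y with
  | mem x hx =>
    rcases hx with rfl | hx
    · apply Submodule.mem_sup_left
      rw [mem_K2]
      intro z
      simp only [Pi.sub_apply, Pi.single_apply]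
      have h1 : (x • z = x • y) ↔ z = y := by
        constructor
        · intro h; exact MulAction.injective x h
        · intro h; rw [h]
      have h2 : (x • z = y) ↔ z = x • y := by
        constructor
        · intro h; rw [← h, hs]
        · intro h; rw [h, hs]
      simp only [h1, h2]
      ring
    · rw [Set.mem_singleton_iff] at hx
      subst hx
      apply Submodule.mem_sup_right
      rw [mem_K3]
      intro z
      simp only [Pi.sub_apply, Pi.single_apply]
      have h1 : (x • z = x • y) ↔ z = y := by
        constructor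
        · intro h; exact MulAction.injective x h
        · intro h; rw [h]
      have h2 : (x • x • z = x • y) ↔ x • z = y := by
        constructor
        · intro h; exact MulAction.injective x h
        · intro h; rw [h]
      have h3 : (x • x • z = y) ↔ z = x • y := by
        constructor
        · intro h; rw [← h, hr]
        · intro h; rw [h, hr]
      simp only [h1, h2, h3]
      ring
  | one => simp
  | mul a b _ _ ha hb =>
    have := Submodule.add_mem _ (ha (b • y)) (hb y)
    rw [mul_smul]
    convert this using 1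
    ring
  | inv a _ ha =>
    have := Submodule.neg_mem _ (ha (a⁻¹ • y))
    rw [smul_inv_smul] at this
    convert this using 1
    ring

lemma finrank_sup_ge [MulAction.IsPretransitive G X] [Nonempty X] (s r : G)
    (hgen : Subgroup.closure {s, r} = ⊤)
    (hs : ∀ x : X, s • s • x = x) (hr : ∀ x : X, r • r • r • x = x) :
    Fintype.card X ≤ finrank ℂ (K2 (X := X) s ⊔ K3 (X := X) r : Submodule ℂ (X → ℂ)) + 1 := by
  classical
  obtain ⟨x0⟩ := (inferInstance : Nonempty X)
  -- the sum functional
  let sumF : (X → ℂ) →ₗ[ℂ] ℂ := ∑ x, LinearMap.proj x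
  have hsumF : ∀ η : X → ℂ, sumF η = ∑ x, η x := by
    intro η
    simp [sumF, LinearMap.sum_apply]
  have hle : LinearMap.ker sumF ≤ K2 (X := X) s ⊔ K3 (X := X) r := by
    intro η hη
    rw [LinearMap.mem_ker, hsumF] at hη
    have : η = ∑ x, η x • (Pi.single x (1 : ℂ) - Pi.single x0 (1 : ℂ) : X → ℂ) := by
      simp only [smul_sub, Finset.sum_sub_distrib, ← Finset.sum_smul, hη, zero_smul, sub_zero]
      ext z
      simp [Finset.sum_apply, Pi.single_apply]
    rw [this]
    refine Submodule.sum_mem _ (fun x _ => Submodule.smul_mem _ _ ?_)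
    obtain ⟨g, rfl⟩ := MulAction.exists_smul_eq G x0 x
    exact single_sub_single_mem s r hgen hs hr g x0
  have h1 := LinearMap.finrank_range_add_finrank_ker sumF
  rw [finrank_fintype_fun_eq_card] at h1
  have h2 : finrank ℂ (LinearMap.range sumF) ≤ 1 := by
    have := Submodule.finrank_le (LinearMap.range sumF)
    simpa using this
  have h3 := Submodule.finrank_mono hle
  omega

/-- The space of Manin relations. -/
noncomputable def maninW (s r : G) : Submodule ℂ (X → ℂ) := K2 s ⊓ K3 r

omit [Fintype X] in
lemma mem_maninW (s r : G) (η : X → ℂ) :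
    η ∈ maninW s r ↔ (∀ x, η x + η (s • x) = 0) ∧ ∀ x, η x + η (r • x) + η (r • r • x) = 0 := by
  rw [maninW, Submodule.mem_inf, mem_K2, mem_K3]

theorem six_mul_finrank_maninW_le [MulAction.IsPretransitive G X] [Nonempty X] (s r : G)
    (hgen : Subgroup.closure {s, r} = ⊤)
    (hs : ∀ x : X, s • s • x = x) (hr : ∀ x : X, r • r • r • x = x) :
    6 * finrank ℂ (maninW (X := X) s r) + 3 * Nat.card {x : X // s • x = x}
      + 4 * Nat.card {x : X // r • x = x} ≤ Fintype.card X + 6 := by
  have h1 := two_mul_finrank_K2 (X := X) s hs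
  have h2 := three_mul_finrank_K3 (X := X) r hr
  have h3 := finrank_sup_ge (X := X) s r hgen hs hr
  have h4 := Submodule.finrank_sup_add_finrank_inf_eq (K2 (X := X) s) (K3 (X := X) r)
  unfold maninW
  omega

end Abstract

end Fermat.Agent.S21h9
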