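import Mathlib
import Fermat.Prelude.Def_ModularCurve_PeriodMap
import Fermat.Agent.S21.ManinBound

set_option autoImplicit false

open Module ModularGroup ModularCurve.Period
open scoped MatrixGroups

namespace Fermat.Agent.S21h9

variable (Γ : Subgroup SL(2, ℤ))

/-- "Potentials": functions on `SL(2,ℤ)`, left invariant under `T` (so functions on cusps, up to
inversion), whose right translates by `Γ` differ by a constant. -/
def potentials : Submodule ℂ (SL(2, ℤ) → ℂ) where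
  carrier := {v | (∀ g, v (T * g) = v g) ∧ ∀ γ ∈ Γ, ∀ g, v (g * γ) - v g = v γ - v 1}
  zero_mem' := by simp
  add_mem' := by
    rintro a b ⟨ha1, ha2⟩ ⟨hb1, hb2⟩
    refine ⟨fun g => by simp [ha1, hb1], fun γ hγ g => ?_⟩
    have h1 := ha2 γ hγ g
    have h2 := hb2 γ hγ g
    simp only [Pi.add_apply]
    linear_combination h1 + h2
  smul_mem' := by
    rintro c a ⟨ha1, ha2⟩
    refine ⟨fun g => by simp [ha1], fun γ hγ g => ?_⟩
    have h1 := ha2 γ hγ g
    simp only [Pi.smul_apply, smul_eq_mul]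
    linear_combination c * h1

variable {Γ}

lemma potentials_T (v : potentials Γ) (g : SL(2, ℤ)) : v.1 (T * g) = v.1 g := v.2.1 g

lemma potentials_Tinv (v : potentials Γ) (g : SL(2, ℤ)) : v.1 (T⁻¹ * g) = v.1 g := by
  have := potentials_T v (T⁻¹ * g)
  rw [mul_inv_cancel_left] at this
  exact this.symm

lemma potentials_mul (v : potentials Γ) {γ : SL(2, ℤ)} (hγ : γ ∈ Γ) (g : SL(2, ℤ)) :
    v.1 (g * γ) = v.1 g + (v.1 γ - v.1 1) := by
  have := v.2.2 γ hγ g
  linear_combination this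

lemma potentials_neg (hneg : (-1 : SL(2, ℤ)) ∈ Γ) (v : potentials Γ) (g : SL(2, ℤ)) :
    v.1 (-g) = v.1 g := by
  have h1 := potentials_mul v hneg (-1)
  have h2 := potentials_mul v hneg g
  have e1 : (-1 : SL(2, ℤ)) * -1 = 1 := by decide
  have e2 : g * (-1 : SL(2, ℤ)) = -g := by simp
  rw [e1] at h1
  rw [e2] at h2
  have h3 : v.1 (-1) - v.1 1 = 0 := by linear_combination (-1 / 2 : ℂ) * h1
  rw [h2, h3, add_zero]

variable (Γ)

/-- The homomorphism attached to a potential. -/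
def potHom : potentials Γ →ₗ[ℂ] (Additive Γ →+ ℂ) where
  toFun v :=
    { toFun := fun γ => v.1 ((Additive.toMul γ : Γ) : SL(2, ℤ)) - v.1 1
      map_zero' := by simp
      map_add' := by
        intro a b
        have := potentials_mul v (Additive.toMul b : Γ).2 ((Additive.toMul a : Γ) : SL(2, ℤ))
        simp only [toMul_add, Subgroup.coe_mul]
        rw [this]
        ring }
  map_add' := by
    intro a b
    refine AddMonoidHom.ext fun γ => ?_
    show (a.1 + b.1) ((Additive.toMul γ : Γ) : SL(2, ℤ)) - (a.1 + b.1) 1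
      = (a.1 ((Additive.toMul γ : Γ) : SL(2, ℤ)) - a.1 1)
        + (b.1 ((Additive.toMul γ : Γ) : SL(2, ℤ)) - b.1 1)
    simp only [Pi.add_apply]
    ring
  map_smul' := by
    intro c a
    refine AddMonoidHom.ext fun γ => ?_
    show (c • a.1) ((Additive.toMul γ : Γ) : SL(2, ℤ)) - (c • a.1) 1
      = c • (a.1 ((Additive.toMul γ : Γ) : SL(2, ℤ)) - a.1 1)
    simp only [Pi.smul_apply, smul_eq_mul]
    ring

lemma potHom_apply (v : potentials Γ) (γ : Γ) :
    potHom Γ v (Additive.ofMul γ) = v.1 (γ : SL(2, ℤ)) - v.1 1 := rfl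

/-- The Manin symbol attached to a potential. -/
noncomputable def potXi : potentials Γ →ₗ[ℂ] ((SL(2, ℤ) ⧸ Γ) → ℂ) where
  toFun v := fun x => v.1 x.out - v.1 (S⁻¹ * x.out)
  map_add' := by
    intro a b
    ext x
    simp only [Submodule.coe_add, Pi.add_apply]
    ring
  map_smul' := by
    intro c a
    ext x
    simp only [Submodule.coe_smul, Pi.smul_apply, smul_eq_mul, RingHom.id_apply]
    ring

lemma potXi_mk (v : potentials Γ) (g : SL(2, ℤ)) :
    potXi Γ v (g : SL(2, ℤ) ⧸ Γ) = v.1 g - v.1 (S⁻¹ * g) := by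
  obtain ⟨h, hh⟩ := QuotientGroup.mk_out_eq_mul Γ g
  show v.1 (Quotient.out (g : SL(2, ℤ) ⧸ Γ)) - v.1 (S⁻¹ * Quotient.out (g : SL(2, ℤ) ⧸ Γ)) = _
  rw [hh, ← mul_assoc, potentials_mul v h.2, potentials_mul v h.2]
  ring

lemma potXi_mem_maninW (hneg : (-1 : SL(2, ℤ)) ∈ Γ) (v : potentials Γ) :
    potXi Γ v ∈ maninW (X := SL(2, ℤ) ⧸ Γ) S (S * T) := by
  rw [mem_maninW]
  constructor
  · intro x
    induction x using QuotientGroup.induction_on with
    | H g =>
      have e : S • (g : SL(2, ℤ) ⧸ Γ) = ((S * g : SL(2, ℤ)) : SL(2, ℤ) ⧸ Γ) := rfl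
      rw [e, potXi_mk, potXi_mk, inv_mul_cancel_left]
      have e2 : S * g = -(S⁻¹ * g) := by
        have : S = -S⁻¹ := by decide
        conv_lhs => rw [this]
        simp
      rw [e2, potentials_neg hneg]
      ring
  · intro x
    induction x using QuotientGroup.induction_on with
    | H g =>
      have e : (S * T) • (g : SL(2, ℤ) ⧸ Γ) = ((S * T * g : SL(2, ℤ)) : SL(2, ℤ) ⧸ Γ) := rfl
      have e' : (S * T) • ((S * T * g : SL(2, ℤ)) : SL(2, ℤ) ⧸ Γ)
          = ((S * T * (S * T * g) : SL(2, ℤ)) : SL(2, ℤ) ⧸ Γ) := rfl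
      rw [e, e', potXi_mk, potXi_mk, potXi_mk]
      have a1 : S⁻¹ * (S * T * g) = T * g := by group
      have a2 : S⁻¹ * (S * T * (S * T * g)) = T * (S * T * g) := by group
      have a3 : S * T * (S * T * g) = -(T⁻¹ * (S⁻¹ * g)) := by
        have : S * T * S * T = -(T⁻¹ * S⁻¹) := by decide
        calc S * T * (S * T * g) = (S * T * S * T) * g := by group
          _ = -(T⁻¹ * (S⁻¹ * g)) := by rw [this]; simp [mul_assoc]
      rw [a1, a2, potentials_T, potentials_T, a3, potentials_neg hneg, potentials_Tinv]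
      ring

lemma potXi_ker_le (v : potentials Γ) (hv : potXi Γ v = 0) (g : SL(2, ℤ)) : v.1 g = v.1 1 := by
  have hS : ∀ g, v.1 (S⁻¹ * g) = v.1 g := by
    intro g
    have := congrFun hv (g : SL(2, ℤ) ⧸ Γ)
    rw [potXi_mk] at this
    simp only [Pi.zero_apply] at this
    linear_combination -this
  have key : ∀ a : SL(2, ℤ), ∀ h, v.1 (a * h) = v.1 h := by
    intro a
    have ha : a ∈ Subgroup.closure {S, T} := by
      rw [SpecialLinearGroup.SL2Z_generators]; trivial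
    induction ha using Subgroup.closure_induction with
    | mem x hx =>
      rcases hx with rfl | hx
      · intro h
        have := hS (S * h)
        rw [inv_mul_cancel_left] at this
        exact this.symm
      · rw [Set.mem_singleton_iff] at hx
        subst hx
        exact potentials_T v
    | one => intro h; rw [one_mul]
    | mul a b _ _ ha hb => intro h; rw [mul_assoc, ha, hb]
    | inv a _ ha =>
      intro h
      have := ha (a⁻¹ * h)
      rw [mul_inv_cancel_left] at this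
      exact this.symm
  have := key g 1
  rwa [mul_one] at this

/-- The orbits of `⟨T⟩` on `SL(2,ℤ) ⧸ Γ` ("cusps"). -/
abbrev CuspQ : Type := MulAction.orbitRel.Quotient (Subgroup.zpowers T) (SL(2, ℤ) ⧸ Γ)

/-- The class of `g` in the double coset space. -/
def cuspMk (g : SL(2, ℤ)) : CuspQ Γ := Quotient.mk'' (g : SL(2, ℤ) ⧸ Γ)

lemma cuspMk_surjective : Function.Surjective (cuspMk Γ) := by
  intro q
  induction q using Quotient.inductionOn' with
  | h x =>
    induction x using QuotientGroup.induction_on with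
    | H g => exact ⟨g, rfl⟩

lemma cuspMk_T_mul (g : SL(2, ℤ)) : cuspMk Γ (T * g) = cuspMk Γ g := by
  apply Quotient.sound'
  rw [MulAction.orbitRel_apply]
  exact ⟨⟨T, Subgroup.mem_zpowers T⟩, rfl⟩

lemma cuspMk_mul_mem (g : SL(2, ℤ)) {γ : SL(2, ℤ)} (hγ : γ ∈ Γ) :
    cuspMk Γ (g * γ) = cuspMk Γ g := by
  unfold cuspMk
  rw [QuotientGroup.mk_mul_of_mem g hγ]

/-- A chosen representative of the double coset of `g`. -/
noncomputable def rep (g : SL(2, ℤ)) : SL(2, ℤ) := (Quotient.out (cuspMk Γ g)).out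

lemma rep_T_mul (g : SL(2, ℤ)) : rep Γ (T * g) = rep Γ g := by
  unfold rep; rw [cuspMk_T_mul]

lemma rep_mul_mem (g : SL(2, ℤ)) {γ : SL(2, ℤ)} (hγ : γ ∈ Γ) : rep Γ (g * γ) = rep Γ g := by
  unfold rep; rw [cuspMk_mul_mem Γ g hγ]

lemma exists_decomp (g : SL(2, ℤ)) : ∃ (n : ℤ) (γ : Γ), g = T ^ n * rep Γ g * γ := by
  have h1 : (Quotient.mk'' (Quotient.out (cuspMk Γ g)) : CuspQ Γ) = cuspMk Γ g :=
    Quotient.out_eq' _
  have h2 := Quotient.exact' h1
  rw [MulAction.orbitRel_apply] at h2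
  obtain ⟨⟨t, ht⟩, ht2⟩ := h2
  obtain ⟨m, rfl⟩ := Subgroup.mem_zpowers_iff.1 ht
  have h3 : ((T ^ m * g : SL(2, ℤ)) : SL(2, ℤ) ⧸ Γ) = ((rep Γ g : SL(2, ℤ)) : SL(2, ℤ) ⧸ Γ) := by
    have : ((rep Γ g : SL(2, ℤ)) : SL(2, ℤ) ⧸ Γ) = Quotient.out (cuspMk Γ g) :=
      Quotient.out_eq' _
    rw [this, ← ht2]
    rfl
  have h4 := QuotientGroup.eq.1 h3.symm
  refine ⟨-m, ⟨_, h4⟩, ?_⟩
  simp only
  group

lemma trace_conj_T_zpow (r : SL(2, ℤ)) (k : ℤ) :
    ((r⁻¹ * T ^ k * r : SL(2, ℤ)) : Matrix (Fin 2) (Fin 2) ℤ).trace = 2 := by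
  rw [Matrix.SpecialLinearGroup.coe_mul, Matrix.SpecialLinearGroup.coe_mul,
    Matrix.trace_mul_cycle, ← Matrix.SpecialLinearGroup.coe_mul, mul_inv_cancel,
    Matrix.SpecialLinearGroup.coe_one, one_mul, coe_T_zpow, Matrix.trace_fin_two_of]
  norm_num

/-- The potential attached to a parabolic homomorphism. -/
noncomputable def potOf (φ : Additive Γ →+ ℂ) (g : SL(2, ℤ)) : ℂ :=
  φ (Additive.ofMul (Classical.choose (Classical.choose_spec (exists_decomp Γ g))))

variable {Γ} in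
lemma potOf_eq {φ : Additive Γ →+ ℂ} (hφ : IsParabolicHom Γ φ) (g : SL(2, ℤ)) (n : ℤ) (γ : Γ)
    (h : g = T ^ n * rep Γ g * γ) : potOf Γ φ g = φ (Additive.ofMul γ) := by
  set n0 := Classical.choose (exists_decomp Γ g) with hn0
  set γ0 := Classical.choose (Classical.choose_spec (exists_decomp Γ g)) with hγ0
  have h0 : g = T ^ n0 * rep Γ g * γ0 :=
    Classical.choose_spec (Classical.choose_spec (exists_decomp Γ g))
  have hδ : ((γ * γ0⁻¹ : Γ) : SL(2, ℤ)) = (rep Γ g)⁻¹ * T ^ (n0 - n) * rep Γ g := by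
    have h1 : T ^ n * rep Γ g * (γ : SL(2, ℤ)) = T ^ n0 * rep Γ g * γ0 := by rw [← h, ← h0]
    have h2 : (γ : SL(2, ℤ)) = (rep Γ g)⁻¹ * T ^ (n0 - n) * rep Γ g * γ0 := by
      calc (γ : SL(2, ℤ)) = (rep Γ g)⁻¹ * (T ^ n)⁻¹ * (T ^ n * rep Γ g * (γ : SL(2, ℤ))) := by group
        _ = (rep Γ g)⁻¹ * (T ^ n)⁻¹ * (T ^ n0 * rep Γ g * γ0) := by rw [h1]
        _ = (rep Γ g)⁻¹ * T ^ (n0 - n) * rep Γ g * γ0 := by group
    rw [Subgroup.coe_mul, Subgroup.coe_inv]
    conv_lhs => rw [h2]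
    group
  have hz : φ (Additive.ofMul (γ * γ0⁻¹)) = 0 := by
    apply hφ
    rw [hδ, trace_conj_T_zpow]
    norm_num
  have : φ (Additive.ofMul γ) = φ (Additive.ofMul (γ * γ0⁻¹)) + φ (Additive.ofMul γ0) := by
    rw [← map_add, ← ofMul_mul, inv_mul_cancel_right]
  rw [this, hz, zero_add]
  rfl

variable {Γ} in
lemma potOf_T_mul {φ : Additive Γ →+ ℂ} (hφ : IsParabolicHom Γ φ) (g : SL(2, ℤ)) :
    potOf Γ φ (T * g) = potOf Γ φ g := by
  obtain ⟨n, γ, h⟩ := exists_decomp Γ g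
  rw [potOf_eq hφ g n γ h, potOf_eq hφ (T * g) (n + 1) γ]
  rw [rep_T_mul]
  conv_lhs => rw [h]
  group

variable {Γ} in
lemma potOf_mul {φ : Additive Γ →+ ℂ} (hφ : IsParabolicHom Γ φ) (g : SL(2, ℤ)) (δ : Γ) :
    potOf Γ φ (g * δ) = potOf Γ φ g + φ (Additive.ofMul δ) := by
  obtain ⟨n, γ, h⟩ := exists_decomp Γ g
  rw [potOf_eq hφ g n γ h, potOf_eq hφ (g * δ) n (γ * δ), ofMul_mul, map_add]
  rw [rep_mul_mem Γ g δ.2, Subgroup.coe_mul]
  conv_lhs => rw [h]
  group

variable {Γ} in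
lemma potOf_mem {φ : Additive Γ →+ ℂ} (hφ : IsParabolicHom Γ φ) : potOf Γ φ ∈ potentials Γ := by
  refine ⟨potOf_T_mul hφ, fun γ hγ g => ?_⟩
  have h1 := potOf_mul hφ g ⟨γ, hγ⟩
  have h2 := potOf_mul hφ 1 ⟨γ, hγ⟩
  simp only [one_mul] at h1 h2
  rw [h1, h2]
  ring

lemma parabolicHoms_le_range : parabolicHoms ℂ Γ ℂ ≤ LinearMap.range (potHom Γ) := by
  intro φ hφ
  rw [mem_parabolicHoms_iff] at hφ
  refine ⟨⟨potOf Γ φ, potOf_mem hφ⟩, ?_⟩
  refine AddMonoidHom.ext fun γ => ?_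
  have h2 := potOf_mul hφ 1 (Additive.toMul γ)
  rw [one_mul] at h2
  show potOf Γ φ ((Additive.toMul γ : Γ) : SL(2, ℤ)) - potOf Γ φ 1 = φ γ
  rw [h2]
  simp

/-- Functions on cusps give potentials with trivial homomorphism. -/
def cuspPot : (CuspQ Γ → ℂ) →ₗ[ℂ] potentials Γ where
  toFun f := ⟨fun g => f (cuspMk Γ g), by
    refine ⟨fun g => by show f (cuspMk Γ (T * g)) = f (cuspMk Γ g); rw [cuspMk_T_mul],
      fun γ hγ g => ?_⟩
    have := cuspMk_mul_mem Γ 1 hγ
    rw [one_mul] at this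
    show f (cuspMk Γ (g * γ)) - f (cuspMk Γ g) = f (cuspMk Γ γ) - f (cuspMk Γ 1)
    rw [cuspMk_mul_mem Γ g hγ, this]
    ring⟩
  map_add' _ _ := rfl
  map_smul' _ _ := rfl

lemma cuspPot_injective : Function.Injective (cuspPot Γ) := by
  intro f f' h
  ext q
  obtain ⟨g, rfl⟩ := cuspMk_surjective Γ q
  exact congrFun (congrArg Subtype.val h) g

lemma cuspPot_mem_ker (f : CuspQ Γ → ℂ) : cuspPot Γ f ∈ LinearMap.ker (potHom Γ) := by
  rw [LinearMap.mem_ker]
  refine AddMonoidHom.ext fun γ => ?_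
  have := cuspMk_mul_mem Γ 1 (Additive.toMul γ : Γ).2
  rw [one_mul] at this
  show f (cuspMk Γ ((Additive.toMul γ : Γ) : SL(2, ℤ))) - f (cuspMk Γ 1) = 0
  rw [this, sub_self]

/-- The embedding of potentials in Manin symbols times constants. -/
noncomputable def potEmb (hneg : (-1 : SL(2, ℤ)) ∈ Γ) :
    potentials Γ →ₗ[ℂ] (maninW (X := SL(2, ℤ) ⧸ Γ) S (S * T)) × ℂ :=
  LinearMap.prod ((potXi Γ).codRestrict _ (potXi_mem_maninW Γ hneg))
    ((LinearMap.proj (1 : SL(2, ℤ))).comp (potentials Γ).subtype)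

lemma potEmb_injective (hneg : (-1 : SL(2, ℤ)) ∈ Γ) : Function.Injective (potEmb Γ hneg) := by
  rw [← LinearMap.ker_eq_bot, LinearMap.ker_eq_bot']
  intro v hv
  have h1 : potXi Γ v = 0 := congrArg Subtype.val (congrArg Prod.fst hv)
  have h2 : v.1 1 = 0 := congrArg Prod.snd hv
  ext g
  rw [potXi_ker_le Γ v h1 g, h2]
  rfl

theorem finiteDimensional_parabolicHoms [Finite (SL(2, ℤ) ⧸ Γ)] (hneg : (-1 : SL(2, ℤ)) ∈ Γ) :
    FiniteDimensional ℂ (parabolicHoms ℂ Γ ℂ) := by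
  have : FiniteDimensional ℂ (potentials Γ) :=
    FiniteDimensional.of_injective (potEmb Γ hneg) (potEmb_injective Γ hneg)
  exact Submodule.finiteDimensional_of_le (parabolicHoms_le_range Γ)

theorem six_mul_finrank_parabolicHoms_le [Finite (SL(2, ℤ) ⧸ Γ)] (hneg : (-1 : SL(2, ℤ)) ∈ Γ) :
    6 * (finrank ℂ (parabolicHoms ℂ Γ ℂ) + Nat.card (CuspQ Γ))
      + 3 * Nat.card {x : SL(2, ℤ) ⧸ Γ // S • x = x}
      + 4 * Nat.card {x : SL(2, ℤ) ⧸ Γ // (S * T) • x = x}
      ≤ Nat.card (SL(2, ℤ) ⧸ Γ) + 12 := by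
  classical
  have := Fintype.ofFinite (SL(2, ℤ) ⧸ Γ)
  have : Finite (CuspQ Γ) := Quotient.finite _
  have := Fintype.ofFinite (CuspQ Γ)
  have : FiniteDimensional ℂ (potentials Γ) :=
    FiniteDimensional.of_injective (potEmb Γ hneg) (potEmb_injective Γ hneg)
  have hgen : Subgroup.closure {S, S * T} = (⊤ : Subgroup SL(2, ℤ)) := by
    rw [eq_top_iff, ← SpecialLinearGroup.SL2Z_generators, Subgroup.closure_le]
    rintro x (rfl | hx)
    · exact Subgroup.subset_closure (Set.mem_insert _ _)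
    · rw [Set.mem_singleton_iff] at hx
      subst hx
      have h1 : S ∈ Subgroup.closure {S, S * T} := Subgroup.subset_closure (Set.mem_insert _ _)
      have h2 : S * T ∈ Subgroup.closure {S, S * T} :=
        Subgroup.subset_closure (Set.mem_insert_of_mem _ rfl)
      have := Subgroup.mul_mem _ (Subgroup.inv_mem _ h1) h2
      rwa [inv_mul_cancel_left] at this
  have hnegact : ∀ x : SL(2, ℤ) ⧸ Γ, (-1 : SL(2, ℤ)) • x = x := by
    intro x
    induction x using QuotientGroup.induction_on with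
    | H g =>
      show (((-1 : SL(2, ℤ)) * g : SL(2, ℤ)) : SL(2, ℤ) ⧸ Γ) = _
      have : (-1 : SL(2, ℤ)) * g = g * (-1) := by simp
      rw [this, QuotientGroup.mk_mul_of_mem g hneg]
  have hs : ∀ x : SL(2, ℤ) ⧸ Γ, S • S • x = x := by
    intro x
    rw [← mul_smul]
    have : S * S = (-1 : SL(2, ℤ)) := by decide
    rw [this, hnegact]
  have hr : ∀ x : SL(2, ℤ) ⧸ Γ, (S * T) • (S * T) • (S * T) • x = x := by
    intro x
    rw [← mul_smul, ← mul_smul]
    have : (S * T) * (S * T) * (S * T) = (-1 : SL(2, ℤ)) := by decide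
    rw [this, hnegact]
  have hW := six_mul_finrank_maninW_le (X := SL(2, ℤ) ⧸ Γ) S (S * T) hgen hs hr
  have h1 : finrank ℂ (potentials Γ) ≤ finrank ℂ (maninW (X := SL(2, ℤ) ⧸ Γ) S (S * T)) + 1 := by
    have := LinearMap.finrank_le_finrank_of_injective (potEmb_injective Γ hneg)
    rwa [finrank_prod, finrank_self] at this
  have h2 := LinearMap.finrank_range_add_finrank_ker (potHom Γ)
  have h3 : finrank ℂ (parabolicHoms ℂ Γ ℂ) ≤ finrank ℂ (LinearMap.range (potHom Γ)) :=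
    Submodule.finrank_mono (parabolicHoms_le_range Γ)
  have h4 : Nat.card (CuspQ Γ) ≤ finrank ℂ (LinearMap.ker (potHom Γ)) := by
    have hinj : Function.Injective
        ((cuspPot Γ).codRestrict (LinearMap.ker (potHom Γ)) (cuspPot_mem_ker Γ)) := by
      intro a b hab
      exact cuspPot_injective Γ (congrArg Subtype.val hab)
    have := LinearMap.finrank_le_finrank_of_injective hinj
    rwa [finrank_fintype_fun_eq_card, ← Nat.card_eq_fintype_card] at this
  rw [← Nat.card_eq_fintype_card] at hW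
  omega

end Fermat.Agent.S21h9
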